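import Fermat.Agent.F1.Final

/-!
# FrobTrace / KernelBoundAux: the degree form `deg (m φ + n) = ℓ m² + a m n + n²` on a generic point,
and the universality of a generic point (helper64)
-/

set_option autoImplicit false

open Polynomial WeierstrassCurve WeierstrassCurve.Affine

namespace Fermat.Agent.FrobTrace

open Fermat.Agent.S52 (shortW frobPt)
open Fermat.Agent.F1

section Quad

variable {ℓ : ℕ} [Fact ℓ.Prime] {A B : ZMod ℓ}
variable (k : Type) [Field k] [Algebra (ZMod ℓ) k]
variable {L : Type} [Field L] [Algebra (ZMod ℓ) L] [Algebra k L] [IsScalarTower (ZMod ℓ) k L]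
  [DecidableEq L]
variable {ξ η : L} (hns : ((shortW A B)⁄L).Nonsingular ξ η)

/-- the combination `m φ P + n P` of a generic point is odd-rational -/
theorem kb_comb_mem (hℓ : 5 ≤ ℓ) (m n : ℤ) :
    m • frobPt (shortW A B) L (Point.some ξ η hns) + n • Point.some ξ η hns ∈ oddRat k hns :=
  (oddRat k hns).add_mem
    ((oddRat k hns).zsmul_mem (frob_mem_oddRat k hns hℓ (gen_mem_oddRat k hns)) m)
    ((oddRat k hns).zsmul_mem (gen_mem_oddRat k hns) n)

/-- **the degree form**: `ht (m φ P + n P) = ℓ m² + a m n + n²` for a generic point `P`. -/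
theorem kb_ht_comb (hℓ : 5 ≤ ℓ) (hΔ : (shortW A B).Δ ≠ 0) (htr : Transcendental k ξ) (m n : ℤ) :
    (ht k ξ (m • frobPt (shortW A B) L (Point.some ξ η hns) + n • Point.some ξ η hns) : ℤ)
      = ℓ * m ^ 2 + (shortW A B).traceOfFrobenius * m * n + n ^ 2 := by
  have : (shortW A B).IsElliptic := ⟨isUnit_iff_ne_zero.mpr hΔ⟩
  have hW : ((shortW A B).map (algebraMap (ZMod ℓ) k)).map (algebraMap k L) = (shortW A B)⁄L := by
    rw [WeierstrassCurve.map_map, ← IsScalarTower.algebraMap_eq]
    rfl
  let d : oddRat k hns → ℤ := fun Q => (ht k ξ (Q : ((shortW A B)⁄L).Point) : ℤ)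
  have hpar : Fermat.Agent.F1Quad.Parallelogram d := by
    intro x y
    have h := ht_parallelogram ((shortW A B).map (algebraMap (ZMod ℓ) k)) hW htr x.1 y.1
      (exists_xRat_of_mem k hns x.2) (exists_xRat_of_mem k hns y.2)
      (exists_xRat_of_mem k hns (x + y).2) (exists_xRat_of_mem k hns (x - y).2)
    simp only [d, AddSubgroup.coe_add, AddSubgroup.coe_sub]
    exact_mod_cast h
  let φ : oddRat k hns →+ oddRat k hns :=
    ((frobPt (shortW A B) L).comp (oddRat k hns).subtype).codRestrict (oddRat k hns)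
      (fun Q => frob_mem_oddRat k hns hℓ Q.2)
  have hφ : ∀ x, d (φ x) = ℓ * d x := by
    intro x
    have h := ht_frob k htr (exists_xRat_of_mem k hns x.2)
    simp only [d]
    exact_mod_cast h
  have hφc : ∀ x : oddRat k hns, ((φ x : oddRat k hns) : ((shortW A B)⁄L).Point)
      = frobPt (shortW A B) L x := fun x => rfl
  let e : oddRat k hns := ⟨Point.some ξ η hns, gen_mem_oddRat k hns⟩
  have he : d e = 1 := by
    simp only [d, e]
    exact_mod_cast ht_gen k hns htr
  have hsubfrob : ∀ x : oddRat k hns,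
      d (x - φ x) = ((ℓ : ℤ) + 1 - (shortW A B).traceOfFrobenius) * d x := by
    intro x
    have h := ht_sub_frob k hns hℓ hΔ htr x.2
    simp only [d, AddSubgroup.coe_sub, hφc]
    exact h
  have hf : d (φ e) = ℓ := by rw [hφ, he, mul_one]
  have hN : d (φ e - e) = (ℓ : ℤ) + 1 - (shortW A B).traceOfFrobenius := by
    rw [hpar.map_sub_comm, hsubfrob, he, mul_one]
  have hpol : Fermat.Agent.F1Quad.polar d (φ e) e = (shortW A B).traceOfFrobenius := by
    have h1 := Fermat.Agent.F1Quad.Parallelogram.map_add (d := d) (φ e) (-e)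
    rw [← sub_eq_add_neg, hN, hf, hpar.map_neg, he, hpar.polar_neg_right] at h1
    linarith
  have key : d (m • φ e + n • e) =
      ℓ * m ^ 2 + (shortW A B).traceOfFrobenius * m * n + n ^ 2 := by
    rw [Fermat.Agent.F1Quad.Parallelogram.map_add (d := d), hpar.map_zsmul, hpar.map_zsmul, hpar.polar_zsmul_left,
      hpar.polar_zsmul_right, hpol, hf, he]
    ring
  have hcoe : ((m • φ e + n • e : oddRat k hns) : ((shortW A B)⁄L).Point)
      = m • frobPt (shortW A B) L (Point.some ξ η hns) + n • Point.some ξ η hns := by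
    simp [e, hφc]
  simp only [d] at key
  rw [hcoe] at key
  exact key

end Quad

end Fermat.Agent.FrobTrace

namespace Fermat.Agent.FrobTrace

open Fermat.Agent.S52 (shortW frobPt)
open Fermat.Agent.F1

section Univ

/-- **Universality of the generic point**: every transcendental element of
`AlgebraicClosure (RatFunc k)` is the image of `X` under a `k`-algebra endomorphism. -/
theorem kb_exists_algHom (k : Type) [Field k] (ξ' : AlgebraicClosure (RatFunc k))
    (hξ' : Transcendental k ξ') :
    ∃ σ : AlgebraicClosure (RatFunc k) →ₐ[k] AlgebraicClosure (RatFunc k),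
      σ (algebraMap (RatFunc k) (AlgebraicClosure (RatFunc k)) RatFunc.X) = ξ' := by
  let f : RatFunc k →ₐ[k] AlgebraicClosure (RatFunc k) := RatFunc.liftAlgHom (Polynomial.aeval ξ')
    (nonZeroDivisors_le_comap_nonZeroDivisors_of_injective _ (transcendental_iff_injective.mp hξ'))
  obtain ⟨φ, hφ⟩ := IntermediateField.exists_algHom_of_splits' (E := AlgebraicClosure (RatFunc k)) f
    (fun s => ⟨(AlgebraicClosure.isAlgebraic (RatFunc k)).isIntegral.isIntegral s,
      IsAlgClosed.splits _⟩)
  refine ⟨φ, ?_⟩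
  have h := DFunLike.congr_fun hφ RatFunc.X
  have hf : f RatFunc.X = ξ' := by
    simp only [f]
    rw [← RatFunc.algebraMap_X, RatFunc.liftAlgHom_apply]
    simp
  rw [hf] at h
  exact h

/-- the generic point of `AlgebraicClosure (RatFunc k)` with `x`-coordinate `X`. -/
theorem kb_exists_generic {F₀ : Type*} [Field F₀] (E : WeierstrassCurve F₀) (hΔ : E.Δ ≠ 0)
    (k : Type) [Field k] [Algebra F₀ k] :
    Transcendental k (algebraMap (RatFunc k) (AlgebraicClosure (RatFunc k)) RatFunc.X) ∧
    ∃ η : AlgebraicClosure (RatFunc k),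
      (E⁄(AlgebraicClosure (RatFunc k))).Nonsingular
        (algebraMap (RatFunc k) (AlgebraicClosure (RatFunc k)) RatFunc.X) η := by
  set L := AlgebraicClosure (RatFunc k) with hL
  set ξ : L := algebraMap (RatFunc k) L RatFunc.X with hξdef
  have hξ : Transcendental k ξ := by
    have h0 : Transcendental k (RatFunc.X : RatFunc k) := RatFunc.transcendental_X
    intro halg
    apply h0
    exact (isAlgebraic_algebraMap_iff (FaithfulSMul.algebraMap_injective (RatFunc k) L)).mp halg
  refine ⟨hξ, ?_⟩
  set W := (E⁄L) with hW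
  let p : L[X] := X ^ 2 + C (W.a₁ * ξ + W.a₃) * X
    - C (ξ ^ 3 + W.a₂ * ξ ^ 2 + W.a₄ * ξ + W.a₆)
  have hpdeg : p.degree = 2 := by
    have : p = C 1 * X ^ 2 + C (W.a₁ * ξ + W.a₃) * X
        + C (-(ξ ^ 3 + W.a₂ * ξ ^ 2 + W.a₄ * ξ + W.a₆)) := by
      simp only [p, C_neg, C_1]; ring
    rw [this]
    exact degree_quadratic one_ne_zero
  obtain ⟨η, hη⟩ := IsAlgClosed.exists_root p (by rw [hpdeg]; norm_num)
  have hη' : η ^ 2 + (W.a₁ * ξ + W.a₃) * η - (ξ ^ 3 + W.a₂ * ξ ^ 2 + W.a₄ * ξ + W.a₆) = 0 := by
    simpa [p] using hη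
  have hEq : W.Equation ξ η := by
    rw [Affine.equation_iff]
    linear_combination hη'
  have hΔL : W.Δ ≠ 0 := by
    have : W.Δ = algebraMap F₀ L E.Δ := by
      rw [hW]
      exact WeierstrassCurve.map_Δ E (algebraMap F₀ L)
    rw [this]
    exact (map_ne_zero_iff _ (FaithfulSMul.algebraMap_injective F₀ L)).mpr hΔ
  exact ⟨η, (W.equation_iff_nonsingular_of_Δ_ne_zero hΔL).mp hEq⟩

end Univ

section Pieces

variable {ℓ : ℕ} [Fact ℓ.Prime] {A B : ZMod ℓ}
variable {k : Type} [Field k] [Algebra (ZMod ℓ) k]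
variable {L : Type} [Field L] [Algebra (ZMod ℓ) L] [Algebra k L] [IsScalarTower (ZMod ℓ) k L]
  [DecidableEq L]

/-- `xRep` commutes with `Point.map`. -/
theorem kb_xRep_map (σ : L →ₐ[ZMod ℓ] L) (Q : ((shortW A B)⁄L).Point) (i : Fin 2) :
    (Affine.Point.map (W' := shortW A B) σ Q).xRep i = σ (Q.xRep i) := by
  rcases Q with _ | ⟨x, y, h⟩
  · rw [← Point.zero_def, map_zero, Point.xRep_zero]
    fin_cases i <;> simp
  · rw [Point.map_some, Point.xRep_some, Point.xRep_some]
    fin_cases i <;> simp

/-- constant points have height `0`. -/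
theorem kb_ht_map_const [DecidableEq k] {ξ : L} (htr : Transcendental k ξ)
    (R : ((shortW A B)⁄k).Point) :
    ht k ξ (Affine.Point.map (W' := shortW A B) (IsScalarTower.toAlgHom (ZMod ℓ) k L) R) = 0 := by
  rcases R with _ | ⟨a, b, h⟩
  · rw [← Point.zero_def, map_zero]
    exact ht_zero htr
  · have hX : XRat (k := k) ξ (Affine.Point.map (W' := shortW A B)
        (IsScalarTower.toAlgHom (ZMod ℓ) k L) (Point.some a b h)) (C a) 1 := by
      refine ⟨isCoprime_one_right, 1, one_ne_zero, ?_, ?_⟩
      · rw [Point.map_some, Point.xRep_some]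
        simp
      · rw [Point.map_some, Point.xRep_some]
        simp
    rw [ht_eq htr hX]
    simp [hpair]

/-- a coprime pair `F, G` with `F(Z) u = G(Z) v` where `(v, u)` is proportional to
`(F(ξ), G(ξ))`, `ξ` transcendental, consists of constants. -/
theorem kb_hpair_eq_zero_of_prop {ξ : L} (htr : Transcendental k ξ) {F G : k[X]}
    (hcop : IsCoprime F G) {c₀ u v : L} (hF : aeval ξ F = c₀ * v)
    (hG : aeval ξ G = c₀ * u)
    (hp : F.map (algebraMap k L) * C u - G.map (algebraMap k L) * C v = 0) :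
    hpair F G = 0 := by
  set F' := F.map (algebraMap k L) with hF'
  set G' := G.map (algebraMap k L) with hG'
  have hinj : Function.Injective (algebraMap k L) := (algebraMap k L).injective
  have h1 : F' * C (aeval ξ G) = G' * C (aeval ξ F) := by
    rw [hF, hG, C_mul, C_mul]
    linear_combination (C c₀) * hp
  obtain ⟨U, V, hUV⟩ := hcop
  have hUV' : U.map (algebraMap k L) * F' + V.map (algebraMap k L) * G' = 1 := by
    rw [hF', hG', ← Polynomial.map_mul, ← Polynomial.map_mul, ← Polynomial.map_add, hUV,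
      Polynomial.map_one]
  have key : ∀ (H : k[X]) (H' : L[X]), H' = H.map (algebraMap k L) →
      (∃ M : L[X], C (aeval ξ H) = H' * M) → H.natDegree = 0 := by
    intro H H' hH' ⟨M, hM⟩
    by_cases h0 : aeval ξ H = 0
    · have : H = 0 := by
        apply (transcendental_iff_injective.mp htr)
        rw [h0, map_zero]
      rw [this, natDegree_zero]
    · have hd := congrArg natDegree hM
      rw [natDegree_C] at hd
      have hH'0 : H' ≠ 0 := by
        rintro rfl
        rw [zero_mul] at hM
        exact h0 (C_eq_zero.mp hM)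
      have hM0 : M ≠ 0 := by
        rintro rfl
        rw [mul_zero] at hM
        exact h0 (C_eq_zero.mp hM)
      rw [natDegree_mul hH'0 hM0] at hd
      have : H'.natDegree = 0 := by omega
      rw [hH', natDegree_map_eq_of_injective hinj] at this
      exact this
  have hG0 : G.natDegree = 0 := by
    apply key G G' hG'
    refine ⟨U.map (algebraMap k L) * C (aeval ξ F) + V.map (algebraMap k L) * C (aeval ξ G), ?_⟩
    linear_combination (-C (aeval ξ G)) * hUV' + (U.map (algebraMap k L)) * h1
  have hF0 : F.natDegree = 0 := by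
    apply key F F' hF'
    refine ⟨U.map (algebraMap k L) * C (aeval ξ F) + V.map (algebraMap k L) * C (aeval ξ G), ?_⟩
    linear_combination (-C (aeval ξ F)) * hUV' - (V.map (algebraMap k L)) * h1
  simp [hpair, hF0, hG0]

end Pieces

end Fermat.Agent.FrobTrace
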