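import Fermat.Agent.Lib.FrobTrace.CharEqGen
import Fermat.Agent.Lib.FrobTrace.KernelBoundAux

/-!
# FrobTrace / KernelBound: `#ker(φ - c) ≤ c² - a c + ℓ` (owner: helper64)

In the F1 framework (`L = AlgebraicClosure (RatFunc k)`, generic point `P = (ξ, η)`): for `ψ = φ - c`,
`ht (ψ P) = c² - a c + ℓ =: D` (quadratic form, `F1Quad`), `D ≠ 0` (else `ℓ = c²`).  If `T ∈ E(k)` with
`ψ T = 0` then `ψ (P + T) = ψ P`, so `x(P + T)` is a root of `F(Z) - R G(Z)` (`R = F/G = x(ψ P)` in
lowest terms, universality of `R` for transcendental points); distinct `T` give distinct roots.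
-/

set_option autoImplicit false

open Polynomial WeierstrassCurve WeierstrassCurve.Affine

namespace Fermat.Agent.FrobTrace

open Fermat.Agent.S52 (shortW frobPt)
open Fermat.Agent.F1

local notation "𝕃" => AlgebraicClosure (RatFunc _)

/-- `c² - a c + ℓ > 0` -/
theorem kb_D_pos {ℓ : ℕ} [Fact ℓ.Prime] (h5 : 5 ≤ ℓ) (A B : ZMod ℓ)
    (hΔ : (shortW A B).Δ ≠ 0) (c : ℤ) :
    0 < c ^ 2 - (shortW A B).traceOfFrobenius * c + ℓ := by
  classical
  obtain ⟨htr, η, hns⟩ := kb_exists_generic (shortW A B) hΔ (ZMod ℓ)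
  have h1 := kb_ht_comb (ZMod ℓ) hns h5 hΔ htr 2 (-(shortW A B).traceOfFrobenius)
  have h2 : (0 : ℤ) ≤ 4 * ℓ - (shortW A B).traceOfFrobenius ^ 2 := by
    have h3 : (0 : ℤ) ≤ ℓ * 2 ^ 2 + (shortW A B).traceOfFrobenius * 2
        * -(shortW A B).traceOfFrobenius + (-(shortW A B).traceOfFrobenius) ^ 2 := by
      rw [← h1]
      exact Int.natCast_nonneg _
    linarith
  set a := (shortW A B).traceOfFrobenius with ha
  by_contra hneg
  push Not at hneg
  have h4 : (2 * c - a) ^ 2 + (4 * ℓ - a ^ 2) ≤ 0 := by nlinarith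
  have h5' : (2 * c - a) ^ 2 = 0 := by nlinarith [sq_nonneg (2 * c - a)]
  have h6 : 2 * c = a := by
    have := pow_eq_zero_iff (two_ne_zero) |>.mp h5'
    linarith
  have h7 : (ℓ : ℤ) ≤ c ^ 2 := by nlinarith
  have h8 : c ^ 2 ≤ (ℓ : ℤ) := by nlinarith
  have h9 : c ^ 2 = (ℓ : ℤ) := le_antisymm h8 h7
  have hprime : ℓ.Prime := Fact.out
  have h10 : c.natAbs * c.natAbs = ℓ := by
    have : ((c.natAbs * c.natAbs : ℕ) : ℤ) = (ℓ : ℤ) := by
      rw [Nat.cast_mul, Int.natCast_natAbs, ← h9, sq, abs_mul_abs_self]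
    exact_mod_cast this
  have h11 : c.natAbs ≠ 1 := by
    intro h
    rw [h] at h10
    omega
  exact Nat.not_prime_mul h11 h11 (h10 ▸ hprime)

/-- the kernel bound on the short model (the real work) -/
theorem card_frob_eq_smul_le_short {ℓ : ℕ} [Fact ℓ.Prime] (h5 : 5 ≤ ℓ) (A B : ZMod ℓ)
    (hΔ : (shortW A B).Δ ≠ 0) (k : Type) [Field k] [Algebra (ZMod ℓ) k] [IsAlgClosed k]
    [DecidableEq k] (c : ℤ) (S : Finset ((shortW A B)⁄k).Point)
    (hS : ∀ P ∈ S, frobPt (shortW A B) k P = c • P) :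
    (S.card : ℤ) ≤ c ^ 2 - (shortW A B).traceOfFrobenius * c + ℓ := by
  classical
  obtain ⟨htr, η, hns⟩ := kb_exists_generic (shortW A B) hΔ k
  generalize hξ : (algebraMap (RatFunc k) (AlgebraicClosure (RatFunc k)) RatFunc.X) = ξ at htr hns
  set ι : k →ₐ[ZMod ℓ] AlgebraicClosure (RatFunc k) :=
    IsScalarTower.toAlgHom (ZMod ℓ) k (AlgebraicClosure (RatFunc k)) with hι
  set P₀ : ((shortW A B)⁄𝕃).Point := Point.some ξ η hns with hP₀
  -- the point `Q = ψ P₀`
  set Q : ((shortW A B)⁄𝕃).Point := frobPt (shortW A B) 𝕃 P₀ - c • P₀ with hQ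
  have hQ' : Q = (1 : ℤ) • frobPt (shortW A B) 𝕃 P₀ + (-c) • P₀ := by
    rw [hQ, one_zsmul, neg_zsmul, sub_eq_add_neg]
  have hQmem : Q ∈ oddRat k hns := by
    rw [hQ']
    exact kb_comb_mem k hns h5 1 (-c)
  have hD : (ht k ξ Q : ℤ) = c ^ 2 - (shortW A B).traceOfFrobenius * c + ℓ := by
    rw [hQ', kb_ht_comb k hns h5 hΔ htr 1 (-c)]
    ring
  have hDpos : 0 < ht k ξ Q := by
    have := kb_D_pos h5 A B hΔ c
    rw [← hD] at this
    exact_mod_cast this
  obtain ⟨F, G, hFG⟩ := exists_xRat_of_mem k hns hQmem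
  have hht : ht k ξ Q = hpair F G := ht_eq htr hFG
  obtain ⟨hcop, c₀, hc₀, hF, hG⟩ := hFG
  -- translates of the generic point
  have htrans : ∀ T : ((shortW A B)⁄k).Point, ∃ (ξ' η' : 𝕃)
      (hns' : ((shortW A B)⁄𝕃).Nonsingular ξ' η'), Transcendental k ξ' ∧
      P₀ + Affine.Point.map (W' := shortW A B) ι T = Point.some ξ' η' hns' :=
    fun T => transfer_translate (shortW A B) hns htr T
  choose r s hns' htr' hsum using htrans
  -- `ψ` kills the constant points of `S`
  have hψ : ∀ T ∈ S, frobPt (shortW A B) 𝕃 (Point.some (r T) (s T) (hns' T))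
      - c • Point.some (r T) (s T) (hns' T) = Q := by
    intro T hT
    rw [← hsum T, map_add, zsmul_add, transfer_frobPt_map, hS T hT, map_zsmul, hQ]
    abel
  -- the polynomial
  set p : 𝕃[X] := F.map (algebraMap k 𝕃) * C (Q.xRep 1) - G.map (algebraMap k 𝕃) * C (Q.xRep 0)
    with hp
  have hp0 : p ≠ 0 := by
    intro h0
    have := kb_hpair_eq_zero_of_prop htr hcop hF hG h0
    omega
  have hdeg : p.natDegree ≤ hpair F G := by
    refine (natDegree_sub_le _ _).trans (max_le ?_ ?_)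
    · exact (natDegree_mul_C_le _ _).trans ((natDegree_map_le).trans (le_max_left _ _))
    · exact (natDegree_mul_C_le _ _).trans ((natDegree_map_le).trans (le_max_right _ _))
  have hroot : ∀ T ∈ S, p.IsRoot (r T) := by
    intro T hT
    obtain ⟨σ, hσ⟩ := kb_exists_algHom k (r T) (htr' T)
    set σ' : 𝕃 →ₐ[ZMod ℓ] 𝕃 := σ.restrictScalars (ZMod ℓ) with hσ'
    have hσapp : ∀ x, σ' x = σ x := fun x => rfl
    -- `σ P₀ = ± P_T`
    have hmap : Affine.Point.map (W' := shortW A B) σ' P₀ = Point.some (r T) (s T) (hns' T) ∨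
        Affine.Point.map (W' := shortW A B) σ' P₀ = -Point.some (r T) (s T) (hns' T) := by
      rw [hP₀, Point.map_some]
      apply Point.X_eq_iff.mp
      rw [hσapp, ← hξ]
      exact hσ
    -- `σ Q = ± Q`
    have hmapQ : Affine.Point.map (W' := shortW A B) σ' Q = Q ∨
        Affine.Point.map (W' := shortW A B) σ' Q = -Q := by
      have e : Affine.Point.map (W' := shortW A B) σ' Q
          = frobPt (shortW A B) 𝕃 (Affine.Point.map (W' := shortW A B) σ' P₀)
            - c • Affine.Point.map (W' := shortW A B) σ' P₀ := by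
        rw [hQ, map_sub, map_zsmul, transfer_frobPt_map]
      rcases hmap with h | h
      · left
        rw [e, h, hψ T hT]
      · right
        rw [e, h, map_neg, smul_neg, ← neg_sub', hψ T hT]
    have hfix : ∀ i, σ (Q.xRep i) = Q.xRep i := by
      intro i
      rw [← hσapp, ← kb_xRep_map]
      rcases hmapQ with h | h
      · rw [h]
      · rw [h, Point.xRep_neg]
    have eF : aeval (r T) F = σ c₀ * Q.xRep 0 := by
      rw [← hσ, hξ, Polynomial.aeval_algHom_apply, hF, map_mul, hfix]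
    have eG : aeval (r T) G = σ c₀ * Q.xRep 1 := by
      rw [← hσ, hξ, Polynomial.aeval_algHom_apply, hG, map_mul, hfix]
    rw [Polynomial.IsRoot, hp, eval_sub, eval_mul, eval_mul, eval_C, eval_C,
      eval_map_algebraMap, eval_map_algebraMap, eF, eG]
    ring
  have hinj : Set.InjOn r (S : Set ((shortW A B)⁄k).Point) := by
    intro T _ T' _ hrr
    have h := (Point.X_eq_iff (h₁ := hns' T) (h₂ := hns' T')).mp hrr
    rw [← hsum T, ← hsum T'] at h
    rcases h with h | h
    · exact Affine.Point.map_injective _ (add_left_cancel h)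
    · exfalso
      have e2 : (0 : ℤ) • frobPt (shortW A B) 𝕃 P₀ + (2 : ℤ) • P₀
          = Affine.Point.map (W' := shortW A B) ι (-T - T') := by
        rw [zero_zsmul, zero_add, two_zsmul, map_sub, map_neg]
        have := h
        rw [neg_add] at this
        calc P₀ + P₀ = (P₀ + Affine.Point.map (W' := shortW A B) ι T)
              + (P₀ - Affine.Point.map (W' := shortW A B) ι T) := by abel
          _ = (-P₀ + -Affine.Point.map (W' := shortW A B) ι T')
              + (P₀ - Affine.Point.map (W' := shortW A B) ι T) := by rw [this]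
          _ = _ := by abel
      have h4 := kb_ht_comb k hns h5 hΔ htr 0 2
      rw [e2, kb_ht_map_const htr] at h4
      norm_num at h4
  have hcard : S.card ≤ p.natDegree := by
    rw [← Finset.card_image_of_injOn hinj]
    apply Polynomial.card_le_degree_of_subset_roots
    intro x hx
    obtain ⟨T, hT, rfl⟩ := Finset.mem_image.mp (Finset.mem_def.mpr hx)
    exact (mem_roots hp0).mpr (hroot T hT)
  rw [← hD, hht]
  exact_mod_cast hcard.trans hdeg

/-- the kernel bound for a general Weierstrass equation, `ℓ ≥ 5` -/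
theorem card_frob_eq_smul_le {ℓ : ℕ} [Fact ℓ.Prime] (h5 : 5 ≤ ℓ) (W : WeierstrassCurve (ZMod ℓ))
    (hΔ : W.Δ ≠ 0) (k : Type) [Field k] [Algebra (ZMod ℓ) k] [IsAlgClosed k]
    [DecidableEq k] (c : ℤ) (S : Finset (W⁄k).Point)
    (hS : ∀ P ∈ S, frobPt W k P = c • P) :
    (S.card : ℤ) ≤ c ^ 2 - W.traceOfFrobenius * c + ℓ := by
  classical
  have hprime : ℓ.Prime := Fact.out
  have h2 : (2 : ZMod ℓ) ≠ 0 := by
    have : ((2 : ℕ) : ZMod ℓ) ≠ 0 := by
      rw [Ne, ZMod.natCast_eq_zero_iff]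
      intro h
      have := Nat.le_of_dvd (by norm_num) h
      omega
    exact_mod_cast this
  have h3 : (3 : ZMod ℓ) ≠ 0 := by
    have : ((3 : ℕ) : ZMod ℓ) ≠ 0 := by
      rw [Ne, ZMod.natCast_eq_zero_iff]
      intro h
      have := Nat.le_of_dvd (by norm_num) h
      omega
    exact_mod_cast this
  obtain ⟨h, hinj, hfrob⟩ := exists_shortHom h5 W k
  have key := card_frob_eq_smul_le_short h5 _ _ (shortW_Δ_ne_zero h5 W hΔ) k c (S.image h) (by
    intro Q hQ
    obtain ⟨P, hP, rfl⟩ := Finset.mem_image.mp hQ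
    rw [← hfrob, hS P hP, map_zsmul])
  rw [Finset.card_image_of_injective _ hinj] at key
  rw [Fermat.Agent.S52.traceOfFrobenius_eq_shortModel W h2 h3]
  exact key

end Fermat.Agent.FrobTrace
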