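import Fermat.Agent.Lib.FrobTrace.Abstract
import Fermat.Agent.Lib.FrobTrace.Residue
import Fermat.Agent.Lib.FrobTrace.KernelBound
import Fermat.Agent.Lib.FrobTrace.EllRed
import Fermat.Agent.Lib.Torsion.Card

/-!
# FrobTrace / Main: trace and determinant of Frobenius on `E[p^j](Q̄)` (F1-full; owner: helper4)

`W / ℤ`, `ℓ ≥ 5` a good prime, `p ≠ ℓ` prime, `τ` a Frobenius element at a valuation subring `A | ℓ` of
`Q̄`: on `E[p^j](Q̄)`, `tr τ = a_ℓ(W)` and `det τ = ℓ` in `ZMod (p^j)`.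
-/

set_option autoImplicit false

open WeierstrassCurve WeierstrassCurve.Affine WeierstrassCurve.Affine.Point

namespace Fermat.Agent.FrobTrace

open Fermat.Agent.S52 (frobPt)

theorem galois_trace_det_frobenius (W : WeierstrassCurve ℤ) {ℓ p : ℕ} [Fact ℓ.Prime]
    [Fact p.Prime] (h5 : 5 ≤ ℓ) (hℓp : ℓ ≠ p) (hgood : W.IsGoodPrimeFor ℓ)
    [DecidableEq (AlgebraicClosure ℚ)]
    (A : ValuationSubring (AlgebraicClosure ℚ)) (hA : A.LiesOverPrime ℓ)
    (τ : AlgebraicClosure ℚ ≃ₐ[ℚ] AlgebraicClosure ℚ) (hτ : A.IsFrobeniusAt τ ℓ) (j : ℕ) :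
    galoisTrace ℚ (W.map (Int.castRingHom ℚ)) (p ^ j) τ = ((W.apOfModel ℓ : ℤ) : ZMod (p ^ j)) ∧
      LinearMap.det (galoisRepModuleEnd ℚ (K := AlgebraicClosure ℚ) (W.map (Int.castRingHom ℚ))
        (p ^ j) τ) = (((ℓ : ℤ)) : ZMod (p ^ j)) := by
  classical
  have hℓprime : ℓ.Prime := Fact.out
  have hpprime : p.Prime := Fact.out
  -- instances on the residue field
  haveI : CharP (IsLocalRing.ResidueField A) ℓ := charP_residueField A hA
  letI : Algebra (ZMod ℓ) (IsLocalRing.ResidueField A) := ZMod.algebra _ ℓ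
  haveI : IsAlgClosed (IsLocalRing.ResidueField A) := isAlgClosed_residueField A
  -- discriminants
  have hΔZ : W.Δ ≠ 0 := by
    intro h
    exact hgood (by rw [h]; exact dvd_zero _)
  have hΔ : ((W.map (Int.castRingHom ℚ))⁄(AlgebraicClosure ℚ)).Δ ≠ 0 := by
    change ((W.map (Int.castRingHom ℚ)).map (algebraMap ℚ (AlgebraicClosure ℚ))).Δ ≠ 0
    rw [WeierstrassCurve.map_Δ, WeierstrassCurve.map_Δ]
    simpa using hΔZ
  have hΔℓ : (W.reductionMod ℓ).Δ ≠ 0 := by
    change (W.map (Int.castRingHom (ZMod ℓ))).Δ ≠ 0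
    rw [WeierstrassCurve.map_Δ]
    intro h
    apply hgood
    have := (ZMod.intCast_zmod_eq_zero_iff_dvd W.Δ ℓ).mp (by simpa using h)
    exact this
  obtain ⟨red, hinj, hfrob⟩ := exists_reduction W hgood A hA
  -- the Galois element as an endomorphism
  let T : ((W.map (Int.castRingHom ℚ))⁄(AlgebraicClosure ℚ)).Point →+
      ((W.map (Int.castRingHom ℚ))⁄(AlgebraicClosure ℚ)).Point :=
    DistribSMul.toAddMonoidHom _ τ
  have hT : ∀ x, T x = τ • x := fun _ => rfl
  have hnot : ∀ n : ℕ, ¬ ℓ ∣ p ^ n := by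
    intro n h
    have := (Nat.prime_dvd_prime_iff_eq hℓprime hpprime).mp (hℓprime.dvd_of_dvd_pow h)
    exact hℓp this
  have hredT : ∀ x, red (T x) = frobPt (W.reductionMod ℓ) (IsLocalRing.ResidueField A) (red x) :=
    fun x => hfrob τ hτ x
  refine abstract_trace_det p T (W.apOfModel ℓ) (ℓ : ℤ) (by exact_mod_cast hℓprime.pos) ?_ ?_ ?_ ?_ j
    (galoisRepModuleEnd ℚ (K := AlgebraicClosure ℚ) (W.map (Int.castRingHom ℚ)) (p ^ j) τ)
    (fun x => rfl)
  · intro n
    rw [Fermat.Agent.Torsion.card_torsionBy hΔ (n := p ^ n) (Nat.one_le_pow _ _ hpprime.pos)]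
    ring
  · intro x _
    exact Fermat.Agent.Torsion.smul_surjective hΔ (n := p) hpprime.one_lt.le x
  · rintro x ⟨n, hn⟩
    apply hinj (p ^ n) (hnot n)
    · have hn' : ((p ^ n : ℕ) : ℤ) • x = 0 := by rw [natCast_zsmul]; exact hn
      have e : ((p ^ n : ℕ) : ℤ) • (T (T x) - W.apOfModel ℓ • T x + (ℓ : ℤ) • x)
          = T (T (((p ^ n : ℕ) : ℤ) • x)) - W.apOfModel ℓ • T (((p ^ n : ℕ) : ℤ) • x)
            + (ℓ : ℤ) • (((p ^ n : ℕ) : ℤ) • x) := by
        simp only [map_zsmul]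
        module
      rw [← natCast_zsmul, e, hn']
      simp [zsmul_zero]
    · rw [map_add, map_sub, map_zsmul, map_zsmul, hredT, hredT]
      exact frobCharEq_gen h5 (W.reductionMod ℓ) hΔℓ _ (red x)
  · intro c S hS
    have hinjS : Set.InjOn red (S : Set _) := by
      intro x hx y hy hxy
      obtain ⟨⟨n, hn⟩, -⟩ := hS x hx
      obtain ⟨⟨m, hm⟩, -⟩ := hS y hy
      have h0 : x - y = 0 := by
        apply hinj (p ^ (n + m)) (hnot _)
        · have hn' : ((p ^ n : ℕ) : ℤ) • x = 0 := by rw [natCast_zsmul]; exact hn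
          have hm' : ((p ^ m : ℕ) : ℤ) • y = 0 := by rw [natCast_zsmul]; exact hm
          have e : ((p ^ (n + m) : ℕ) : ℤ) • (x - y)
              = ((p ^ m : ℕ) : ℤ) • (((p ^ n : ℕ) : ℤ) • x)
                - ((p ^ n : ℕ) : ℤ) • (((p ^ m : ℕ) : ℤ) • y) := by
            rw [pow_add, Nat.cast_mul]
            module
          rw [← natCast_zsmul, e, hn', hm']
          simp [zsmul_zero]
        · rw [map_sub, hxy, sub_self]
      exact sub_eq_zero.mp h0
    have key := card_frob_eq_smul_le h5 (W.reductionMod ℓ) hΔℓ (IsLocalRing.ResidueField A) c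
      (S.image red) (by
        intro Q hQ
        obtain ⟨x, hx, rfl⟩ := Finset.mem_image.mp hQ
        rw [← hredT, (hS x hx).2, map_zsmul])
    rw [Finset.card_image_of_injOn hinjS] at key
    exact key

end Fermat.Agent.FrobTrace
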