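import Fermat.Agent.Lib.FrobTrace.DetCyclo
import Fermat.Agent.Lib.FrobTrace.Main
import Fermat.Agent.S13.OpenStab

/-!
# The determinant of the Galois action on `E[p^j](Q̄)` is the cyclotomic character (helper96)

`W / ℤ` with `Δ ≠ 0`, `p` prime: for every `g ∈ G_ℚ`, `det (g | E[p^j]) = χ_{p^j}(g)`.
From `galois_trace_det_frobenius` (determinant at Frobenius elements) and weak Chebotarev.
Consequences: oddness (`det (c | E[p^j]) = -1`) and the congruence form of the Prelude's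
`GaloisRepAdic.DetIsCyclotomic`.
-/

set_option autoImplicit false

open WeierstrassCurve WeierstrassCurve.Affine WeierstrassCurve.Affine.Point

namespace Fermat.Agent.FrobTrace

open Fermat.Agent.Cyclo (Qb GQ modChar)

/-- The kernel of the action of `G_ℚ` on a finite torsion module `E[n](Q̄)` is open. -/
theorem isOpen_galoisRepModuleEnd_eq_one (W' : Affine ℚ) [inst : DecidableEq Qb] (n : ℕ)
    [Finite (Submodule.torsionBy ℤ (W'⁄Qb).Point n)] :
    IsOpen {σ : GQ | galoisRepModuleEnd ℚ (K := Qb) W' n σ = 1} := by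
  obtain rfl : inst = instDecEqAlgebraicClosureRat := Subsingleton.elim _ _
  have hset : {σ : GQ | galoisRepModuleEnd ℚ (K := Qb) W' n σ = 1}
      = ⋂ x : Submodule.torsionBy ℤ (W'⁄Qb).Point n, {σ : GQ | σ • x = x} := by
    ext σ
    simp only [Set.mem_ofPred_eq, Set.mem_iInter]
    constructor
    · intro h x
      have := congrArg (fun f : Module.End (ZMod n) _ => f x) h
      simpa using this
    · intro h
      ext x
      simpa using congrArg Subtype.val (h x)
  rw [hset]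
  exact isOpen_iInter_of_finite fun x =>
    Fermat.Agent.S13Open.isOpen_stabilizer_torsion W' n x

/-- The finite set of primes excluded in the density argument. -/
noncomputable def badSet (W : WeierstrassCurve ℤ) (p : ℕ) : Finset ℕ :=
  Finset.range 5 ∪ {p} ∪ W.Δ.natAbs.primeFactors

theorem five_le_of_not_mem_badSet {W : WeierstrassCurve ℤ} {p ℓ : ℕ} (h : ℓ ∉ badSet W p) :
    5 ≤ ℓ := by
  by_contra hlt
  apply h
  simp only [badSet, Finset.mem_union, Finset.mem_range]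
  exact Or.inl (Or.inl (by omega))

theorem ne_of_not_mem_badSet {W : WeierstrassCurve ℤ} {p ℓ : ℕ} (h : ℓ ∉ badSet W p) :
    ℓ ≠ p := by
  rintro rfl
  apply h
  simp [badSet]

theorem isGoodPrimeFor_of_not_mem_badSet {W : WeierstrassCurve ℤ} (hΔ : W.Δ ≠ 0) {p ℓ : ℕ}
    (hℓ : ℓ.Prime) (h : ℓ ∉ badSet W p) : W.IsGoodPrimeFor ℓ := by
  intro hdvd
  apply h
  simp only [badSet, Finset.mem_union, Nat.mem_primeFactors]
  refine Or.inr ⟨hℓ, ?_, ?_⟩
  · exact Int.natCast_dvd.mp hdvd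
  · simpa using hΔ

theorem mem_badSet_of_dvd_pow {W : WeierstrassCurve ℤ} {p : ℕ} (hp : p.Prime) (j : ℕ) {ℓ : ℕ}
    (hℓ : ℓ.Prime) (h : ℓ ∣ p ^ j) : ℓ ∈ badSet W p := by
  have : ℓ = p := (Nat.prime_dvd_prime_iff_eq hℓ hp).mp (hℓ.dvd_of_dvd_pow h)
  subst this
  simp [badSet]

section Main

variable (W : WeierstrassCurve ℤ) (hΔ : W.Δ ≠ 0) {p : ℕ} [Fact p.Prime] [DecidableEq Qb]

include hΔ

theorem finite_torsionBy_pow (j : ℕ) :
    Finite (Submodule.torsionBy ℤ ((W.map (Int.castRingHom ℚ))⁄Qb).Point (p ^ j : ℕ)) := by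
  have hp : p.Prime := Fact.out
  have hΔ' : ((W.map (Int.castRingHom ℚ))⁄Qb).Δ ≠ 0 := by
    change ((W.map (Int.castRingHom ℚ)).map (algebraMap ℚ Qb)).Δ ≠ 0
    rw [WeierstrassCurve.map_Δ, WeierstrassCurve.map_Δ]
    simpa using hΔ
  exact Fermat.Agent.Torsion.finite_torsionBy hΔ' (n := p ^ j) (Nat.one_le_pow _ _ hp.pos)

/-- **`det ρ_{E,p^j} = χ_{p^j}`.** -/
theorem galois_det_eq_modChar (j : ℕ) (g : GQ) :
    haveI : NeZero (p ^ j) := ⟨pow_ne_zero j (Fact.out : p.Prime).ne_zero⟩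
    LinearMap.det (galoisRepModuleEnd ℚ (K := Qb) (W.map (Int.castRingHom ℚ)) (p ^ j) g)
      = ((modChar (p ^ j) g : (ZMod (p ^ j))ˣ) : ZMod (p ^ j)) := by
  haveI : NeZero (p ^ j) := ⟨pow_ne_zero j (Fact.out : p.Prime).ne_zero⟩
  have hp : p.Prime := Fact.out
  haveI := finite_torsionBy_pow W hΔ (p := p) j
  have key := det_eq_modChar_of_frobenius (p ^ j) (RingHom.id (ZMod (p ^ j)))
    (galoisRepModuleEnd ℚ (K := Qb) (W.map (Int.castRingHom ℚ)) (p ^ j))
    (isOpen_galoisRepModuleEnd_eq_one _ _) (badSet W p)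
    (fun ℓ hℓ h => mem_badSet_of_dvd_pow hp j hℓ h)
    (fun ℓ hℓ hℓS B τ hB hτ => by
      haveI : Fact ℓ.Prime := ⟨hℓ⟩
      have := (galois_trace_det_frobenius W (five_le_of_not_mem_badSet hℓS)
        (ne_of_not_mem_badSet hℓS) (isGoodPrimeFor_of_not_mem_badSet hΔ hℓ hℓS) B hB τ hτ j).2
      rw [this]
      simp) g
  simpa using key

/-- **Oddness** of the Galois action on `E[p^j]`. -/
theorem galois_det_complexConjugation (j : ℕ) :
    LinearMap.det (galoisRepModuleEnd ℚ (K := Qb) (W.map (Int.castRingHom ℚ)) (p ^ j)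
      complexConjugation) = -1 := by
  haveI : NeZero (p ^ j) := ⟨pow_ne_zero j (Fact.out : p.Prime).ne_zero⟩
  have h := galois_det_eq_modChar W hΔ (p := p) j complexConjugation
  rw [h, Fermat.Agent.Cyclo.modChar_complexConjugation (p ^ j)]
  simp

/-- Congruence form: if `σ μ = μ ^ a` on `μ_{p^j}`, then `det (σ | E[p^j]) = a`. -/
theorem galois_det_eq_natCast (j : ℕ) (σ : GQ) (a : ℕ)
    (ha : ∀ μ : Qb, μ ^ p ^ j = 1 → σ μ = μ ^ a) :
    LinearMap.det (galoisRepModuleEnd ℚ (K := Qb) (W.map (Int.castRingHom ℚ)) (p ^ j) σ)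
      = (a : ZMod (p ^ j)) := by
  haveI : NeZero (p ^ j) := ⟨pow_ne_zero j (Fact.out : p.Prime).ne_zero⟩
  have h := galois_det_eq_modChar W hΔ (p := p) j σ
  rw [h, Fermat.Agent.Cyclo.modChar_eq_natCast_of_pow (p ^ j) σ a ha]

end Main

end Fermat.Agent.FrobTrace
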