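import Fermat.Agent.Lib.FrobTrace.ShortHom
import Fermat.Agent.F1.Final

/-!
# FrobTrace / CharEqGen: `φ² - a φ + ℓ = 0` for a general Weierstrass equation over `F_ℓ`, `ℓ ≥ 5`
(owner: helper4)
-/

set_option autoImplicit false

open WeierstrassCurve WeierstrassCurve.Affine

namespace Fermat.Agent.FrobTrace

open Fermat.Agent.S52 (shortW frobPt)

theorem frobCharEq_gen {ℓ : ℕ} [Fact ℓ.Prime] (h5 : 5 ≤ ℓ) (W : WeierstrassCurve (ZMod ℓ))
    (hΔ : W.Δ ≠ 0) (k : Type) [Field k] [Algebra (ZMod ℓ) k] [IsAlgClosed k] [DecidableEq k]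
    (P : (W⁄k).Point) :
    frobPt W k (frobPt W k P) - W.traceOfFrobenius • frobPt W k P + (ℓ : ℤ) • P = 0 := by
  have hprime : ℓ.Prime := Fact.out
  have h2 : (2 : ZMod ℓ) ≠ 0 := by
    have : ((2 : ℕ) : ZMod ℓ) ≠ 0 := by
      rw [Ne, ZMod.natCast_eq_zero_iff]
      intro h
      have := Nat.le_of_dvd (by norm_num) h
      omega
    exact_mod_cast this
  have h3 : (3 : ZMod ℓ) ≠ 0 := by
    have : ((3 : ℕ) : ZMod ℓ) ≠ 0 := by
      rw [Ne, ZMod.natCast_eq_zero_iff]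
      intro h
      have := Nat.le_of_dvd (by norm_num) h
      omega
    exact_mod_cast this
  obtain ⟨h, hinj, hfrob⟩ := exists_shortHom h5 W k
  apply hinj
  rw [map_zero, map_add, map_sub, map_zsmul, map_zsmul, hfrob, hfrob,
    Fermat.Agent.S52.traceOfFrobenius_eq_shortModel W h2 h3]
  exact Fermat.Agent.F1.frobCharEq ℓ h5 _ _ (shortW_Δ_ne_zero h5 W hΔ) k (h P)

end Fermat.Agent.FrobTrace
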