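import Mathlib

/-!
# FrobTrace / Abstract: trace and determinant from Cayley–Hamilton + a kernel bound (owner: helper4)

`G` an abelian group with `#G[p^n] = p^(2n)` for all `n`, `p`-divisible on `p`-power torsion;
`τ : G →+ G` with `τ² - a τ + ℓ = 0` on `p`-power torsion and with the *kernel bound*
`#{x ∈ G[p^∞] : τ x = c x} ≤ c² - a c + ℓ` for every integer `c`.
Then on every `G[p^j]` (free of rank 2 over `ZMod (p^j)`), `tr τ = a` and `det τ = ℓ`.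

Proof: take `N = j + e₀` with `p^(2 e₀) > 4 ℓ`, a `ZMod (p^N)`-basis `e₁, e₂` of `G[p^N]`, the integer
matrix `M` of `τ`; Cayley–Hamilton for `M` minus the hypothesis gives `(tr M - a) M ≡ (det M - ℓ) I`;
if `M` is scalar modulo `p^e₀` then `τ = c` on `G[p^e₀]`, so `p^(2e₀) ≤ c² - a c + ℓ` for the
lift `c` closest to `a/2`, contradiction; hence `tr M ≡ a`, `det M ≡ ℓ` mod `p^j`.
-/

set_option autoImplicit false
set_option linter.style.haveILetI false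

namespace Fermat.Agent.FrobTrace

section Arith

/-- if `p^n ∣ z * w` and `¬ p^k ∣ z` with `k ≤ n`, then `p^(n - k + 1) ∣ w` -/
theorem abs_pow_dvd_of_not_dvd {p : ℕ} (hp : p.Prime) {n k : ℕ} {z w : ℤ}
    (h : (p : ℤ) ^ n ∣ z * w) (hz : ¬ (p : ℤ) ^ k ∣ z) (hk : k ≤ n) :
    (p : ℤ) ^ (n - k + 1) ∣ w := by
  have hpZ : Prime (p : ℤ) := Nat.prime_iff_prime_int.mp hp
  have hz0 : z ≠ 0 := by
    rintro rfl
    exact hz (dvd_zero _)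
  -- exact power of p in z
  have hfin : FiniteMultiplicity (p : ℤ) z :=
    FiniteMultiplicity.of_prime_left hpZ hz0
  obtain ⟨z', hz', hnd⟩ := hfin.exists_eq_pow_mul_and_not_dvd
  set i := multiplicity (p : ℤ) z with hi
  have hik : i < k := by
    by_contra hcon
    rw [not_lt] at hcon
    apply hz
    rw [hz']
    exact Dvd.dvd.mul_right (pow_dvd_pow _ hcon) _
  have h1 : (p : ℤ) ^ i * (p : ℤ) ^ (n - i) ∣ (p : ℤ) ^ i * (z' * w) := by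
    rw [← pow_add, Nat.add_sub_cancel' (by omega)]
    rw [hz'] at h
    rw [← mul_assoc]
    exact h
  have h2 : (p : ℤ) ^ (n - i) ∣ z' * w :=
    (mul_dvd_mul_iff_left (pow_ne_zero _ hpZ.ne_zero)).mp h1
  have h3 : (p : ℤ) ^ (n - i) ∣ w := hpZ.pow_dvd_of_dvd_mul_left _ hnd h2
  exact dvd_trans (pow_dvd_pow _ (by omega)) h3

/-- choice of the lift closest to `a/2` -/
theorem abs_exists_lift (α a : ℤ) {q : ℤ} (hq : 0 < q) :
    ∃ c : ℤ, q ∣ c - α ∧ (2 * c - a) ^ 2 ≤ q ^ 2 := by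
  -- s = 2α - a + q, r = s mod 2q, c = α - q * (s / (2q))
  set s := 2 * α - a + q with hs
  refine ⟨α - q * (s / (2 * q)), ⟨-(s / (2 * q)), by ring⟩, ?_⟩
  have h2q : (0 : ℤ) < 2 * q := by linarith
  have hr0 := Int.emod_nonneg s h2q.ne'
  have hr1 := Int.emod_lt_of_pos s h2q
  have hdiv := Int.emod_add_mul_ediv s (2 * q)
  have e : 2 * (α - q * (s / (2 * q))) - a = s % (2 * q) - q := by
    rw [hs] at hdiv ⊢
    linarith
  rw [e]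
  have h1 : -q ≤ s % (2 * q) - q := by linarith
  have h2 : s % (2 * q) - q ≤ q := by linarith
  nlinarith

/-- the arithmetic core -/
theorem abs_core_arith {p : ℕ} (hp : p.Prime) (N j e₀ : ℕ) (hN : N = j + e₀)
    (α β γ δ a ℓ : ℤ)
    (A1 : (p : ℤ) ^ N ∣ γ * (α + δ - a)) (A2 : (p : ℤ) ^ N ∣ β * (α + δ - a))
    (A3 : (p : ℤ) ^ N ∣ (α - δ) * (α + δ - a))
    (A4 : (p : ℤ) ^ N ∣ (α * δ - β * γ - ℓ) - α * (α + δ - a))
    (hP : ¬ ((p : ℤ) ^ e₀ ∣ β ∧ (p : ℤ) ^ e₀ ∣ γ ∧ (p : ℤ) ^ e₀ ∣ α - δ)) :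
    (p : ℤ) ^ j ∣ α + δ - a ∧ (p : ℤ) ^ j ∣ α * δ - β * γ - ℓ := by
  have hle : e₀ ≤ N := by omega
  have key : (p : ℤ) ^ j ∣ α + δ - a := by
    have hj : j ≤ N - e₀ + 1 := by omega
    by_cases h1 : (p : ℤ) ^ e₀ ∣ β
    · by_cases h2 : (p : ℤ) ^ e₀ ∣ γ
      · have h3 : ¬ (p : ℤ) ^ e₀ ∣ α - δ := fun h3 => hP ⟨h1, h2, h3⟩
        exact dvd_trans (pow_dvd_pow _ hj) (abs_pow_dvd_of_not_dvd hp A3 h3 hle)
      · exact dvd_trans (pow_dvd_pow _ hj) (abs_pow_dvd_of_not_dvd hp A1 h2 hle)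
    · exact dvd_trans (pow_dvd_pow _ hj) (abs_pow_dvd_of_not_dvd hp A2 h1 hle)
  refine ⟨key, ?_⟩
  have h4 : (p : ℤ) ^ j ∣ (α * δ - β * γ - ℓ) - α * (α + δ - a) :=
    dvd_trans (pow_dvd_pow _ (by omega)) A4
  have := dvd_add h4 (Dvd.dvd.mul_left key α)
  simpa using this

end Arith

section Basis

variable {G : Type*} [AddCommGroup G]

/-- level-one basis from `#G[p] = p²` -/
theorem abs_level_one (p : ℕ) [Fact p.Prime]
    (hcard : Nat.card (Submodule.torsionBy ℤ G ((p ^ 1 : ℕ) : ℤ)) = p ^ (2 * 1)) :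
    ∃ u₁ u₂ : G, (p : ℤ) • u₁ = 0 ∧ (p : ℤ) • u₂ = 0 ∧
      (∀ m n : ℤ, m • u₁ + n • u₂ = 0 → (p : ℤ) ∣ m ∧ (p : ℤ) ∣ n) ∧
      (∀ x : G, (p : ℤ) • x = 0 → ∃ m n : ℤ, x = m • u₁ + n • u₂) := by
  have hp : p.Prime := Fact.out
  set V := Submodule.torsionBy ℤ G ((p ^ 1 : ℕ) : ℤ) with hVdef
  have hmem : ∀ x : G, x ∈ V ↔ (p : ℤ) • x = 0 := by
    intro x
    rw [hVdef, Submodule.mem_torsionBy_iff, pow_one]
  have hV : ∀ x : V, p • x = 0 := by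
    intro x
    apply Subtype.ext
    rw [Submodule.coe_smul_of_tower, ZeroMemClass.coe_zero, ← natCast_zsmul]
    exact (hmem x).mp x.2
  obtain ⟨inst1⟩ : Nonempty (Module (ZMod p) V) := ⟨AddCommGroup.zmodModule hV⟩
  haveI : Finite V := Nat.finite_of_card_ne_zero (by rw [hcard]; exact pow_ne_zero _ hp.ne_zero)
  haveI : Module.Finite (ZMod p) V := Module.Finite.of_finite
  have hrank : Module.finrank (ZMod p) V = 2 := by
    have h : Nat.card V = Nat.card (ZMod p) ^ Module.finrank (ZMod p) V :=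
      Module.natCard_eq_pow_finrank
    rw [hcard, Nat.card_zmod] at h
    exact (Nat.pow_right_injective hp.two_le h).symm
  let b := Module.finBasisOfFinrankEq (ZMod p) V hrank
  refine ⟨((b 0 : V) : G), ((b 1 : V) : G), (hmem _).mp (b 0).2, (hmem _).mp (b 1).2, ?_, ?_⟩
  · intro m n hmn
    have h0 : (m : ZMod p) • b 0 + (n : ZMod p) • b 1 = 0 := by
      apply Subtype.ext
      rw [Int.cast_smul_eq_zsmul, Int.cast_smul_eq_zsmul]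
      simpa using hmn
    have hli := b.linearIndependent
    rw [Fintype.linearIndependent_iff] at hli
    have := hli ![(m : ZMod p), (n : ZMod p)] (by simpa [Fin.sum_univ_two] using h0)
    have hm := this 0
    have hn := this 1
    simp only [Matrix.cons_val_zero, Matrix.cons_val_one] at hm hn
    exact ⟨(ZMod.intCast_zmod_eq_zero_iff_dvd m p).mp hm,
      (ZMod.intCast_zmod_eq_zero_iff_dvd n p).mp hn⟩
  · intro x hx
    have hxV : x ∈ V := (hmem x).mpr hx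
    have hsum := b.sum_repr ⟨x, hxV⟩
    rw [Fin.sum_univ_two] at hsum
    refine ⟨((b.repr ⟨x, hxV⟩ 0).cast : ℤ), ((b.repr ⟨x, hxV⟩ 1).cast : ℤ), ?_⟩
    have := congrArg (Subtype.val) hsum
    rw [← ZMod.intCast_zmod_cast (b.repr ⟨x, hxV⟩ 0), ← ZMod.intCast_zmod_cast (b.repr ⟨x, hxV⟩ 1),
      Int.cast_smul_eq_zsmul, Int.cast_smul_eq_zsmul] at this
    simpa using this.symm

/-- a `ℤ/p^(N+1)`-basis of `G[p^(N+1)]` -/
theorem abs_basis (p : ℕ) [Fact p.Prime]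
    (hcard : Nat.card (Submodule.torsionBy ℤ G ((p ^ 1 : ℕ) : ℤ)) = p ^ (2 * 1))
    (hdiv : ∀ x : G, (∃ n : ℕ, (p : ℤ) ^ n • x = 0) → ∃ y : G, (p : ℤ) • y = x) (N : ℕ) :
    ∃ e₁ e₂ : G, (p : ℤ) ^ (N + 1) • e₁ = 0 ∧ (p : ℤ) ^ (N + 1) • e₂ = 0 ∧
      (∀ m n : ℤ, m • e₁ + n • e₂ = 0 → (p : ℤ) ^ (N + 1) ∣ m ∧ (p : ℤ) ^ (N + 1) ∣ n) ∧
      (∀ x : G, (p : ℤ) ^ (N + 1) • x = 0 → ∃ m n : ℤ, x = m • e₁ + n • e₂) := by
  obtain ⟨u₁, u₂, hu₁, hu₂, hind, hspan⟩ := abs_level_one (G := G) p hcard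
  suffices h : ∃ e₁ e₂ : G, (p : ℤ) ^ N • e₁ = u₁ ∧ (p : ℤ) ^ N • e₂ = u₂ ∧
      (∀ m n : ℤ, m • e₁ + n • e₂ = 0 → (p : ℤ) ^ (N + 1) ∣ m ∧ (p : ℤ) ^ (N + 1) ∣ n) ∧
      (∀ x : G, (p : ℤ) ^ (N + 1) • x = 0 → ∃ m n : ℤ, x = m • e₁ + n • e₂) by
    obtain ⟨e₁, e₂, h1, h2, h3, h4⟩ := h
    refine ⟨e₁, e₂, ?_, ?_, h3, h4⟩
    · rw [pow_succ', mul_smul, h1, hu₁]
    · rw [pow_succ', mul_smul, h2, hu₂]
  induction N with
  | zero =>
    refine ⟨u₁, u₂, by simp, by simp, ?_, ?_⟩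
    · simpa using hind
    · simpa using hspan
  | succ N ih =>
    obtain ⟨e₁, e₂, h1, h2, h3, h4⟩ := ih
    obtain ⟨f₁, hf₁⟩ := hdiv e₁ ⟨N + 1, by rw [pow_succ', mul_smul, h1, hu₁]⟩
    obtain ⟨f₂, hf₂⟩ := hdiv e₂ ⟨N + 1, by rw [pow_succ', mul_smul, h2, hu₂]⟩
    have hf₁' : (p : ℤ) ^ (N + 1) • f₁ = u₁ := by rw [pow_succ, mul_smul, hf₁, h1]
    have hf₂' : (p : ℤ) ^ (N + 1) • f₂ = u₂ := by rw [pow_succ, mul_smul, hf₂, h2]
    refine ⟨f₁, f₂, hf₁', hf₂', ?_, ?_⟩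
    · intro m n hmn
      have h5 : m • e₁ + n • e₂ = 0 := by
        have := congrArg (fun z => (p : ℤ) • z) hmn
        simp only [smul_add, smul_zero] at this
        rw [smul_comm, hf₁, smul_comm (p : ℤ) n, hf₂] at this
        exact this
      obtain ⟨⟨m', rfl⟩, ⟨n', rfl⟩⟩ := h3 m n h5
      have h6 : m' • u₁ + n' • u₂ = 0 := by
        rw [← hf₁', ← hf₂', smul_smul, smul_smul, mul_comm m', mul_comm n']
        exact hmn
      obtain ⟨⟨m'', rfl⟩, ⟨n'', rfl⟩⟩ := hind m' n' h6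
      refine ⟨⟨m'', by ring⟩, ⟨n'', by ring⟩⟩
    · intro x hx
      obtain ⟨m, n, hmn⟩ := hspan ((p : ℤ) ^ (N + 1) • x) (by
        rw [smul_smul, ← pow_succ']; exact hx)
      obtain ⟨m₂, n₂, h7⟩ := h4 (x - (m • f₁ + n • f₂)) (by
        rw [smul_sub, hmn, smul_add, smul_comm, hf₁', smul_comm _ n, hf₂', sub_self])
      refine ⟨m + p * m₂, n + p * n₂, ?_⟩
      rw [sub_eq_iff_eq_add] at h7
      rw [h7, ← hf₁, ← hf₂]
      module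

end Basis

section Descend

variable {G : Type*} [AddCommGroup G]

/-- descending a basis of `G[p^(j+e)]` to `G[p^j]` -/
theorem abs_descend (p : ℕ) [Fact p.Prime] (j e : ℕ) (e₁ e₂ : G)
    (hind : ∀ m n : ℤ, m • e₁ + n • e₂ = 0 → (p : ℤ) ^ (j + e) ∣ m ∧ (p : ℤ) ^ (j + e) ∣ n)
    (hspan : ∀ x : G, (p : ℤ) ^ (j + e) • x = 0 → ∃ m n : ℤ, x = m • e₁ + n • e₂) :
    (∀ m n : ℤ, m • ((p : ℤ) ^ e • e₁) + n • ((p : ℤ) ^ e • e₂) = 0 →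
        (p : ℤ) ^ j ∣ m ∧ (p : ℤ) ^ j ∣ n) ∧
      (∀ x : G, (p : ℤ) ^ j • x = 0 →
        ∃ m n : ℤ, x = m • ((p : ℤ) ^ e • e₁) + n • ((p : ℤ) ^ e • e₂)) := by
  have hp : p.Prime := Fact.out
  have hpZ : (p : ℤ) ≠ 0 := by exact_mod_cast hp.ne_zero
  constructor
  · intro m n hmn
    obtain ⟨⟨m', hm'⟩, ⟨n', hn'⟩⟩ := hind (m * (p : ℤ) ^ e) (n * (p : ℤ) ^ e) (by
      rw [← hmn]; simp only [mul_smul])
    constructor
    · refine ⟨m', ?_⟩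
      have : m * (p : ℤ) ^ e = ((p : ℤ) ^ j * m') * (p : ℤ) ^ e := by rw [hm']; ring
      exact mul_right_cancel₀ (pow_ne_zero _ hpZ) this
    · refine ⟨n', ?_⟩
      have : n * (p : ℤ) ^ e = ((p : ℤ) ^ j * n') * (p : ℤ) ^ e := by rw [hn']; ring
      exact mul_right_cancel₀ (pow_ne_zero _ hpZ) this
  · intro x hx
    obtain ⟨m, n, rfl⟩ := hspan x (by rw [pow_add, mul_comm, mul_smul, hx, smul_zero])
    obtain ⟨⟨m', hm'⟩, ⟨n', hn'⟩⟩ := hind ((p : ℤ) ^ j * m) ((p : ℤ) ^ j * n) (by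
      rw [← hx]; simp only [mul_smul, smul_add])
    have hm : m = m' * (p : ℤ) ^ e := by
      have : (p : ℤ) ^ j * m = (p : ℤ) ^ j * (m' * (p : ℤ) ^ e) := by rw [hm']; ring
      exact mul_left_cancel₀ (pow_ne_zero _ hpZ) this
    have hn : n = n' * (p : ℤ) ^ e := by
      have : (p : ℤ) ^ j * n = (p : ℤ) ^ j * (n' * (p : ℤ) ^ e) := by rw [hn']; ring
      exact mul_left_cancel₀ (pow_ne_zero _ hpZ) this
    refine ⟨m', n', ?_⟩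
    rw [hm, hn]
    simp only [mul_smul]

/-- if the matrix of `τ` is scalar modulo `p^e` then `τ` is a scalar on `G[p^e]` -/
theorem abs_scalar (p : ℕ) [Fact p.Prime] (τ : G →+ G) (j e : ℕ) (e₁ e₂ : G)
    (he₁ : (p : ℤ) ^ (j + e) • e₁ = 0) (he₂ : (p : ℤ) ^ (j + e) • e₂ = 0)
    (hind : ∀ m n : ℤ, m • e₁ + n • e₂ = 0 → (p : ℤ) ^ (j + e) ∣ m ∧ (p : ℤ) ^ (j + e) ∣ n)
    (hspan : ∀ x : G, (p : ℤ) ^ (j + e) • x = 0 → ∃ m n : ℤ, x = m • e₁ + n • e₂)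
    (α β γ δ c : ℤ) (h₁ : τ e₁ = α • e₁ + γ • e₂) (h₂ : τ e₂ = β • e₁ + δ • e₂)
    (hβ : (p : ℤ) ^ e ∣ β) (hγ : (p : ℤ) ^ e ∣ γ) (hαδ : (p : ℤ) ^ e ∣ α - δ)
    (hc : (p : ℤ) ^ e ∣ c - α) (x : G) (hx : (p : ℤ) ^ e • x = 0) : τ x = c • x := by
  obtain ⟨-, hsp⟩ := abs_descend p e j e₁ e₂ (by rw [add_comm]; exact hind)
    (by rw [add_comm]; exact hspan)
  obtain ⟨m, n, rfl⟩ := hsp x hx
  obtain ⟨β', rfl⟩ := hβ
  obtain ⟨γ', rfl⟩ := hγ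
  obtain ⟨η, hη⟩ := hαδ
  obtain ⟨κ, hκ⟩ := hc
  have hδ : δ = α - (p : ℤ) ^ e * η := by linarith
  have hc' : c = α + (p : ℤ) ^ e * κ := by linarith
  have z₁ : ∀ z : ℤ, (z * (p : ℤ) ^ (j + e)) • e₁ = 0 := fun z => by rw [mul_smul, he₁, smul_zero]
  have z₂ : ∀ z : ℤ, (z * (p : ℤ) ^ (j + e)) • e₂ = 0 := fun z => by rw [mul_smul, he₂, smul_zero]
  rw [map_add, map_zsmul, map_zsmul, map_zsmul, map_zsmul, h₁, h₂, hδ, hc']
  rw [← sub_eq_zero]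
  have : m • (p : ℤ) ^ j • (α • e₁ + ((p : ℤ) ^ e * γ') • e₂) +
        n • (p : ℤ) ^ j • (((p : ℤ) ^ e * β') • e₁ + (α - (p : ℤ) ^ e * η) • e₂) -
      (α + (p : ℤ) ^ e * κ) • (m • (p : ℤ) ^ j • e₁ + n • (p : ℤ) ^ j • e₂)
      = ((n * β' - m * κ) * (p : ℤ) ^ (j + e)) • e₁
        + ((m * γ' - n * η - n * κ) * (p : ℤ) ^ (j + e)) • e₂ := by
    rw [pow_add]
    module
  rw [this, z₁, z₂, add_zero]

end Descend

section Main

variable {G : Type*} [AddCommGroup G]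

theorem abstract_trace_det (p : ℕ) [Fact p.Prime] (τ : G →+ G)
    (a ℓ : ℤ) (hℓ : 0 < ℓ)
    (hcard : ∀ n : ℕ, Nat.card (Submodule.torsionBy ℤ G ((p ^ n : ℕ) : ℤ)) = p ^ (2 * n))
    (hdiv : ∀ x : G, (∃ n : ℕ, (p ^ n) • x = 0) → ∃ y : G, p • y = x)
    (hCH : ∀ x : G, (∃ n : ℕ, (p ^ n) • x = 0) → τ (τ x) - a • τ x + ℓ • x = 0)
    (hker : ∀ (c : ℤ) (S : Finset G),
      (∀ x ∈ S, (∃ n : ℕ, (p ^ n) • x = 0) ∧ τ x = c • x) → (S.card : ℤ) ≤ c ^ 2 - a * c + ℓ)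
    (j : ℕ) [Module (ZMod (p ^ j)) (Submodule.torsionBy ℤ G ((p ^ j : ℕ) : ℤ))]
    (f : Module.End (ZMod (p ^ j)) (Submodule.torsionBy ℤ G ((p ^ j : ℕ) : ℤ)))
    (hf : ∀ x, ((f x : Submodule.torsionBy ℤ G ((p ^ j : ℕ) : ℤ)) : G) = τ x) :
    LinearMap.trace (ZMod (p ^ j)) _ f = (a : ZMod (p ^ j)) ∧
      LinearMap.det f = (ℓ : ZMod (p ^ j)) := by
  classical
  have hp : p.Prime := Fact.out
  have hpZ : (0 : ℤ) < p := by exact_mod_cast hp.pos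
  have hconv : ∀ (n : ℕ) (x : G), (p ^ n) • x = 0 ↔ (p : ℤ) ^ n • x = 0 := by
    intro n x
    rw [← natCast_zsmul, Nat.cast_pow]
  have hdiv' : ∀ x : G, (∃ n : ℕ, (p : ℤ) ^ n • x = 0) → ∃ y : G, (p : ℤ) • y = x := by
    rintro x ⟨n, hn⟩
    obtain ⟨y, hy⟩ := hdiv x ⟨n, (hconv n x).mpr hn⟩
    exact ⟨y, by rw [natCast_zsmul]; exact hy⟩
  -- the auxiliary depth `e₀`
  obtain ⟨e₀, he₀pos, he₀big⟩ : ∃ e₀ : ℕ, 1 ≤ e₀ ∧ 4 * ℓ < ((p : ℤ) ^ e₀) ^ 2 := by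
    refine ⟨(4 * ℓ).toNat, by omega, ?_⟩
    have h1 : (4 * ℓ).toNat < p ^ (4 * ℓ).toNat := Nat.lt_pow_self hp.one_lt
    have h2 : p ^ (4 * ℓ).toNat ≤ (p ^ (4 * ℓ).toNat) ^ 2 := by
      have : 1 ≤ p ^ (4 * ℓ).toNat := Nat.one_le_pow _ _ hp.pos
      nlinarith
    have h3 : ((4 * ℓ).toNat : ℤ) = 4 * ℓ := Int.toNat_of_nonneg (by linarith)
    have h4 : ((4 * ℓ).toNat : ℤ) < ((p : ℤ) ^ (4 * ℓ).toNat) ^ 2 := by
      exact_mod_cast lt_of_lt_of_le h1 h2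
    rw [h3] at h4
    exact h4
  obtain ⟨N', hN'⟩ : ∃ N', j + e₀ = N' + 1 := ⟨j + e₀ - 1, by omega⟩
  obtain ⟨e₁, e₂, he₁, he₂, hind, hspan⟩ := abs_basis (G := G) p (hcard 1) hdiv' N'
  rw [← hN'] at he₁ he₂ hind hspan
  -- the integer matrix of `τ`
  obtain ⟨α, γ, h₁⟩ := hspan (τ e₁) (by rw [← map_zsmul, he₁, map_zero])
  obtain ⟨β, δ, h₂⟩ := hspan (τ e₂) (by rw [← map_zsmul, he₂, map_zero])
  -- Cayley–Hamilton at `e₁`, `e₂`
  have hCH₁ := hCH e₁ ⟨j + e₀, (hconv _ _).mpr he₁⟩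
  rw [h₁, map_add, map_zsmul, map_zsmul, h₁, h₂] at hCH₁
  have hCH₁' : (α * α + γ * β - a * α + ℓ) • e₁ + (α * γ + γ * δ - a * γ) • e₂ = 0 := by
    rw [← hCH₁]; module
  obtain ⟨hB1, hB2⟩ := hind _ _ hCH₁'
  have hCH₂ := hCH e₂ ⟨j + e₀, (hconv _ _).mpr he₂⟩
  rw [h₂, map_add, map_zsmul, map_zsmul, h₁, h₂] at hCH₂
  have hCH₂' : (β * α + δ * β - a * β) • e₁ + (β * γ + δ * δ - a * δ + ℓ) • e₂ = 0 := by
    rw [← hCH₂]; module
  obtain ⟨hB3, hB4⟩ := hind _ _ hCH₂'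
  have A1 : (p : ℤ) ^ (j + e₀) ∣ γ * (α + δ - a) := by
    have : γ * (α + δ - a) = α * γ + γ * δ - a * γ := by ring
    rw [this]; exact hB2
  have A2 : (p : ℤ) ^ (j + e₀) ∣ β * (α + δ - a) := by
    have : β * (α + δ - a) = β * α + δ * β - a * β := by ring
    rw [this]; exact hB3
  have A3 : (p : ℤ) ^ (j + e₀) ∣ (α - δ) * (α + δ - a) := by
    have : (α - δ) * (α + δ - a)
        = (α * α + γ * β - a * α + ℓ) - (β * γ + δ * δ - a * δ + ℓ) := by ring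
    rw [this]; exact dvd_sub hB1 hB4
  have A4 : (p : ℤ) ^ (j + e₀) ∣ (α * δ - β * γ - ℓ) - α * (α + δ - a) := by
    have : (α * δ - β * γ - ℓ) - α * (α + δ - a) = -(α * α + γ * β - a * α + ℓ) := by ring
    rw [this]; exact (dvd_neg).mpr hB1
  -- the matrix is not scalar modulo `p^e₀`
  have hP : ¬ ((p : ℤ) ^ e₀ ∣ β ∧ (p : ℤ) ^ e₀ ∣ γ ∧ (p : ℤ) ^ e₀ ∣ α - δ) := by
    rintro ⟨hβ, hγ, hαδ⟩
    obtain ⟨c, hcα, hc⟩ := abs_exists_lift α a (q := (p : ℤ) ^ e₀) (by positivity)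
    haveI hfinV : Finite (Submodule.torsionBy ℤ G ((p ^ e₀ : ℕ) : ℤ)) :=
      Nat.finite_of_card_ne_zero (by rw [hcard]; exact pow_ne_zero _ hp.ne_zero)
    have hfin : ((Submodule.torsionBy ℤ G ((p ^ e₀ : ℕ) : ℤ) : Set G)).Finite := Set.toFinite _
    have key := hker c hfin.toFinset (by
      intro x hx
      rw [Set.Finite.mem_toFinset, SetLike.mem_coe, Submodule.mem_torsionBy_iff, Nat.cast_pow] at hx
      exact ⟨⟨e₀, (hconv _ _).mpr hx⟩,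
        abs_scalar p τ j e₀ e₁ e₂ he₁ he₂ hind hspan α β γ δ c h₁ h₂ hβ hγ hαδ hcα x hx⟩)
    have hcardS : hfin.toFinset.card = p ^ (2 * e₀) := by
      rw [← Set.ncard_eq_toFinset_card _ hfin, ← Nat.card_coe_set_eq]
      exact hcard e₀
    rw [hcardS] at key
    have key' : ((p : ℤ) ^ e₀) ^ 2 ≤ c ^ 2 - a * c + ℓ := by
      have : (((p ^ (2 * e₀) : ℕ)) : ℤ) = ((p : ℤ) ^ e₀) ^ 2 := by
        push_cast; ring
      rw [← this]; exact key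
    nlinarith [sq_nonneg a, sq_nonneg ((p : ℤ) ^ e₀)]
  obtain ⟨htr, hdet⟩ := abs_core_arith hp (j + e₀) j e₀ rfl α β γ δ a ℓ A1 A2 A3 A4 hP
  -- the basis of `G[p^j]`
  obtain ⟨hind', hspan'⟩ := abs_descend p j e₀ e₁ e₂ hind hspan
  have hb₁ : (p : ℤ) ^ e₀ • e₁ ∈ Submodule.torsionBy ℤ G ((p ^ j : ℕ) : ℤ) := by
    rw [Submodule.mem_torsionBy_iff, Nat.cast_pow, smul_smul, ← pow_add]; exact he₁
  have hb₂ : (p : ℤ) ^ e₀ • e₂ ∈ Submodule.torsionBy ℤ G ((p ^ j : ℕ) : ℤ) := by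
    rw [Submodule.mem_torsionBy_iff, Nat.cast_pow, smul_smul, ← pow_add]; exact he₂
  set v : Fin 2 → Submodule.torsionBy ℤ G ((p ^ j : ℕ) : ℤ) :=
    ![⟨(p : ℤ) ^ e₀ • e₁, hb₁⟩, ⟨(p : ℤ) ^ e₀ • e₂, hb₂⟩] with hv
  have hv0 : ((v 0 : Submodule.torsionBy ℤ G ((p ^ j : ℕ) : ℤ)) : G) = (p : ℤ) ^ e₀ • e₁ := rfl
  have hv1 : ((v 1 : Submodule.torsionBy ℤ G ((p ^ j : ℕ) : ℤ)) : G) = (p : ℤ) ^ e₀ • e₂ := rfl
  have hcomb : ∀ (m n : ℤ),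
      (((m : ZMod (p ^ j)) • v 0 + (n : ZMod (p ^ j)) • v 1 :
        Submodule.torsionBy ℤ G ((p ^ j : ℕ) : ℤ)) : G)
        = m • ((p : ℤ) ^ e₀ • e₁) + n • ((p : ℤ) ^ e₀ • e₂) := by
    intro m n
    rw [Int.cast_smul_eq_zsmul, Int.cast_smul_eq_zsmul, Submodule.coe_add,
      Submodule.coe_smul_of_tower, Submodule.coe_smul_of_tower, hv0, hv1]
  have hli : LinearIndependent (ZMod (p ^ j)) v := by
    rw [Fintype.linearIndependent_iff]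
    intro g hg
    rw [Fin.sum_univ_two, ← ZMod.intCast_zmod_cast (g 0), ← ZMod.intCast_zmod_cast (g 1)] at hg
    have h0 := congrArg Subtype.val hg
    rw [hcomb, ZeroMemClass.coe_zero] at h0
    obtain ⟨hm, hn⟩ := hind' _ _ h0
    have hm' : g 0 = 0 := by
      rw [← ZMod.intCast_zmod_cast (g 0)]
      exact (ZMod.intCast_zmod_eq_zero_iff_dvd _ _).mpr (by rw [Nat.cast_pow]; exact hm)
    have hn' : g 1 = 0 := by
      rw [← ZMod.intCast_zmod_cast (g 1)]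
      exact (ZMod.intCast_zmod_eq_zero_iff_dvd _ _).mpr (by rw [Nat.cast_pow]; exact hn)
    intro i
    fin_cases i
    · exact hm'
    · exact hn'
  have hsp : ⊤ ≤ Submodule.span (ZMod (p ^ j)) (Set.range v) := by
    rintro ⟨x, hx⟩ -
    rw [Submodule.mem_torsionBy_iff, Nat.cast_pow] at hx
    obtain ⟨m, n, hmn⟩ := hspan' x hx
    have : (⟨x, by rw [Submodule.mem_torsionBy_iff, Nat.cast_pow]; exact hx⟩ :
        Submodule.torsionBy ℤ G ((p ^ j : ℕ) : ℤ))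
        = (m : ZMod (p ^ j)) • v 0 + (n : ZMod (p ^ j)) • v 1 := by
      apply Subtype.ext
      rw [hcomb]
      exact hmn
    rw [this]
    exact Submodule.add_mem _
      (Submodule.smul_mem _ _ (Submodule.subset_span ⟨0, rfl⟩))
      (Submodule.smul_mem _ _ (Submodule.subset_span ⟨1, rfl⟩))
  let b : Module.Basis (Fin 2) (ZMod (p ^ j)) (Submodule.torsionBy ℤ G ((p ^ j : ℕ) : ℤ)) :=
    Module.Basis.mk hli hsp
  have hb : ∀ i, b i = v i := fun i => Module.Basis.mk_apply hli hsp i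
  let M : Matrix (Fin 2) (Fin 2) (ZMod (p ^ j)) :=
    !![(α : ZMod (p ^ j)), (β : ZMod (p ^ j)); (γ : ZMod (p ^ j)), (δ : ZMod (p ^ j))]
  have hfM : f = Matrix.toLin b b M := by
    apply b.ext
    intro i
    rw [Matrix.toLin_self, Fin.sum_univ_two, hb, hb, hb]
    apply Subtype.ext
    rw [hf]
    fin_cases i
    · change τ (v 0) = (((α : ZMod (p ^ j)) • v 0 + (γ : ZMod (p ^ j)) • v 1 :
        Submodule.torsionBy ℤ G ((p ^ j : ℕ) : ℤ)) : G)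
      rw [hcomb, hv0, map_zsmul, h₁]
      module
    · change τ (v 1) = (((β : ZMod (p ^ j)) • v 0 + (δ : ZMod (p ^ j)) • v 1 :
        Submodule.torsionBy ℤ G ((p ^ j : ℕ) : ℤ)) : G)
      rw [hcomb, hv1, map_zsmul, h₂]
      module
  have hcast : ∀ z w : ℤ, (p : ℤ) ^ j ∣ z - w → (z : ZMod (p ^ j)) = (w : ZMod (p ^ j)) := by
    intro z w h
    rw [eq_comm, ZMod.intCast_eq_intCast_iff_dvd_sub, Nat.cast_pow]
    exact h
  constructor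
  · rw [hfM, LinearMap.trace_eq_matrix_trace (ZMod (p ^ j)) b, LinearMap.toMatrix_toLin,
      Matrix.trace_fin_two_of, ← Int.cast_add]
    exact hcast _ _ htr
  · rw [hfM, LinearMap.det_toLin, Matrix.det_fin_two_of, ← Int.cast_mul, ← Int.cast_mul,
      ← Int.cast_sub]
    exact hcast _ _ hdet

end Main

end Fermat.Agent.FrobTrace
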