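import Fermat.Agent.Lib.FrobTrace.Char2.Final
import Fermat.Agent.Lib.FrobTrace.Char3.CharEqOdd

/-!
# FrobTrace / CharEqAll: `φ² - a φ + ℓ = 0` for a general Weierstrass equation over `F_ℓ`,
EVERY prime `ℓ` (including `ℓ = 2` and `ℓ = 3`)
(helper51)
-/

set_option autoImplicit false

open WeierstrassCurve WeierstrassCurve.Affine

namespace Fermat.Agent.FrobTrace

open Fermat.Agent.S52 (frobPt)

/-- **Cayley–Hamilton for Frobenius** on the points of an arbitrary smooth Weierstrass equation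
over `F_ℓ`, for every prime `ℓ`. -/
theorem frobCharEq_all {ℓ : ℕ} [Fact ℓ.Prime] (W : WeierstrassCurve (ZMod ℓ))
    (hΔ : W.Δ ≠ 0) (k : Type) [Field k] [Algebra (ZMod ℓ) k] [IsAlgClosed k] [DecidableEq k]
    (P : (W⁄k).Point) :
    frobPt W k (frobPt W k P) - W.traceOfFrobenius • frobPt W k P + (ℓ : ℤ) • P = 0 := by
  by_cases hℓ : ℓ = 2
  · subst hℓ
    exact Char2.frobCharEq_two W hΔ k P
  · exact Char3.frobCharEq_gen_odd hℓ W hΔ k P

end Fermat.Agent.FrobTrace
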