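import Fermat.Agent.Lib.FrobTrace.DetTraceGal

/-!
# The determinant of a `G_ℚ`-representation is cyclotomic if it is so at Frobenius elements
(helper96)

`ρ : G_ℚ →* End_A(M)` with open kernel, `A` a `ZMod n`-algebra.  If `det ρ(τ) = ℓ` for every
Frobenius element `τ` at a prime `ℓ` outside a finite set `S` (containing the primes dividing
`n`), then `det ρ(g) = χ_n(g)` for ALL `g`, where `χ_n = modChar n` is the mod `n` cyclotomic
character.  Consequences: `det ρ(c) = -1` for the complex conjugation `c`, and the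
congruence form used by the Prelude's `GaloisRepAdic.DetIsCyclotomic`.
-/

set_option autoImplicit false

namespace Fermat.Agent.FrobTrace

open Fermat.Agent.Cyclo (Qb GQ modChar)

/-- Weak Chebotarev for a pair (homomorphism with open kernel, cyclotomic character):
every `g` agrees with a power of a Frobenius element at a prime outside `S`. -/
theorem exists_frobenius_pow_eq {H : Type*} [Monoid H] (n : ℕ) [NeZero n] (ρ : GQ →* H)
    (hρ : IsOpen {σ : GQ | ρ σ = 1}) (S : Finset ℕ) (g : GQ) :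
    ∃ (ℓ : ℕ) (A : ValuationSubring Qb) (τ : GQ) (j : ℕ), ℓ.Prime ∧ ℓ ∉ S ∧
      A.LiesOverPrime ℓ ∧ A.IsFrobeniusAt τ ℓ ∧ ρ g = ρ τ ^ j ∧ modChar n g = modChar n τ ^ j := by
  let U : Subgroup GQ := ρ.ker ⊓ (modChar n).ker
  have hUn : U.Normal := Subgroup.normal_inf_normal _ _
  have hU : IsOpen (U : Set GQ) := by
    have : (U : Set GQ) = {σ | ρ σ = 1} ∩ {σ | modChar n σ = 1} := by
      ext σ
      simp [U, MonoidHom.mem_ker]
    rw [this]
    exact hρ.inter (isOpen_modChar_eq_one n)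
  obtain ⟨ℓ, A, τ, k, j, hℓ, hℓS, hA, hτ, -, hj⟩ :=
    Fermat.Agent.FrobDensity.frobenius_density_open U hU g S
  refine ⟨ℓ, A, τ, j, hℓ, hℓS, hA, hτ, ?_, ?_⟩
  · have h1 : ρ (g⁻¹ * τ ^ j) = 1 := MonoidHom.mem_ker.mp hj.1
    have : ρ g * ρ (g⁻¹ * τ ^ j) = ρ τ ^ j := by
      rw [← map_mul, mul_inv_cancel_left, map_pow]
    rw [h1, mul_one] at this
    exact this
  · have h1 : modChar n (g⁻¹ * τ ^ j) = 1 := MonoidHom.mem_ker.mp hj.2
    have : modChar n g * modChar n (g⁻¹ * τ ^ j) = modChar n τ ^ j := by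
      rw [← map_mul, mul_inv_cancel_left, map_pow]
    rw [h1, mul_one] at this
    exact this

/-- If `det ρ(τ) = ℓ` at all Frobenius elements outside `S`, then `det ρ = χ_n` everywhere. -/
theorem det_eq_modChar_of_frobenius (n : ℕ) [NeZero n] {A : Type*} [CommRing A]
    (φ : ZMod n →+* A) {M : Type*} [AddCommGroup M] [Module A M]
    (ρ : GQ →* Module.End A M) (hρ : IsOpen {σ : GQ | ρ σ = 1}) (S : Finset ℕ)
    (hS : ∀ ℓ : ℕ, ℓ.Prime → ℓ ∣ n → ℓ ∈ S)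
    (hdet : ∀ ℓ : ℕ, ℓ.Prime → ℓ ∉ S → ∀ (B : ValuationSubring Qb) (τ : GQ),
      B.LiesOverPrime ℓ → B.IsFrobeniusAt τ ℓ → LinearMap.det (ρ τ) = (ℓ : A))
    (g : GQ) : LinearMap.det (ρ g) = φ ((modChar n g : (ZMod n)ˣ) : ZMod n) := by
  obtain ⟨ℓ, B, τ, j, hℓ, hℓS, hB, hτ, h1, h2⟩ := exists_frobenius_pow_eq n ρ hρ S g
  have hn : ¬ ℓ ∣ n := fun h => hℓS (hS ℓ hℓ h)
  rw [h1, h2, map_pow, hdet ℓ hℓ hℓS B τ hB hτ, Units.val_pow_eq_pow_val, map_pow,
    Fermat.Agent.Cyclo.modChar_frobenius n hℓ hn B hB τ hτ, map_natCast]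

/-- Oddness: under the hypotheses of `det_eq_modChar_of_frobenius`, `det ρ(c) = -1`. -/
theorem det_complexConjugation_of_frobenius (n : ℕ) [NeZero n] {A : Type*} [CommRing A]
    (φ : ZMod n →+* A) {M : Type*} [AddCommGroup M] [Module A M]
    (ρ : GQ →* Module.End A M) (hρ : IsOpen {σ : GQ | ρ σ = 1}) (S : Finset ℕ)
    (hS : ∀ ℓ : ℕ, ℓ.Prime → ℓ ∣ n → ℓ ∈ S)
    (hdet : ∀ ℓ : ℕ, ℓ.Prime → ℓ ∉ S → ∀ (B : ValuationSubring Qb) (τ : GQ),
      B.LiesOverPrime ℓ → B.IsFrobeniusAt τ ℓ → LinearMap.det (ρ τ) = (ℓ : A)) :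
    LinearMap.det (ρ complexConjugation) = -1 := by
  rw [det_eq_modChar_of_frobenius n φ ρ hρ S hS hdet,
    Fermat.Agent.Cyclo.modChar_complexConjugation n]
  simp

/-- Congruence form (the shape of the Prelude's `DetIsCyclotomic`): if `σ` acts on the `n`-th
roots of unity by `μ ↦ μ ^ a`, then `det ρ(σ) = a`. -/
theorem det_eq_natCast_of_frobenius (n : ℕ) [NeZero n] {A : Type*} [CommRing A]
    (φ : ZMod n →+* A) {M : Type*} [AddCommGroup M] [Module A M]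
    (ρ : GQ →* Module.End A M) (hρ : IsOpen {σ : GQ | ρ σ = 1}) (S : Finset ℕ)
    (hS : ∀ ℓ : ℕ, ℓ.Prime → ℓ ∣ n → ℓ ∈ S)
    (hdet : ∀ ℓ : ℕ, ℓ.Prime → ℓ ∉ S → ∀ (B : ValuationSubring Qb) (τ : GQ),
      B.LiesOverPrime ℓ → B.IsFrobeniusAt τ ℓ → LinearMap.det (ρ τ) = (ℓ : A))
    (σ : GQ) (a : ℕ) (ha : ∀ μ : Qb, μ ^ n = 1 → σ μ = μ ^ a) :
    LinearMap.det (ρ σ) = (a : A) := by
  rw [det_eq_modChar_of_frobenius n φ ρ hρ S hS hdet,
    Fermat.Agent.Cyclo.modChar_eq_natCast_of_pow n σ a ha, map_natCast]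

end Fermat.Agent.FrobTrace
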