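import Mathlib

/-!
# Determinant and trace from the Cayley–Hamilton relation of Frobenius elements (helper96)

Abstract core of "F1-full" WITHOUT Weil pairing.  Let `R` be a local ring, `ρ : G →* M₂(R)` and
`χ : G →* R` (think: `G = Gal(Q̄/Q)`, `ρ` = action on `E[p^j]`, `χ` = cyclotomic character).
Assume a set `Frob ⊆ G` of "good Frobenius elements" with numbers `a τ : R` such that
`ρ τ * ρ τ - a τ • ρ τ + χ τ • 1 = 0` (the relation `φ² - a_ℓ φ + ℓ = 0` of `F1.frobCharEq`,
transported by the reduction map), which is dense in the weak sense of `Lib/FrobDensity`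
(every `g` is, modulo `ker ρ ∩ ker χ`, a power of a Frobenius element).
If some `ρ g₀` is not a scalar modulo the maximal ideal (e.g. `ρ mod 𝔪` irreducible), then
`det ρ = χ` on all of `G` and `tr (ρ τ) = a τ` for every `τ ∈ Frob`, scalar or not.
-/

set_option autoImplicit false

open Matrix

namespace Fermat.Agent.FrobTrace

variable {R : Type*} [CommRing R] [IsLocalRing R]

/-- `T` is a scalar matrix modulo the maximal ideal. -/
def IsScalarMod (T : Matrix (Fin 2) (Fin 2) R) : Prop :=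
  T 0 1 ∈ IsLocalRing.maximalIdeal R ∧ T 1 0 ∈ IsLocalRing.maximalIdeal R ∧
    T 0 0 - T 1 1 ∈ IsLocalRing.maximalIdeal R

lemma isScalarMod_iff_residue (T : Matrix (Fin 2) (Fin 2) R) :
    IsScalarMod T ↔ IsLocalRing.residue R (T 0 1) = 0 ∧ IsLocalRing.residue R (T 1 0) = 0 ∧
      IsLocalRing.residue R (T 0 0) = IsLocalRing.residue R (T 1 1) := by
  unfold IsScalarMod
  rw [← IsLocalRing.residue_eq_zero_iff, ← IsLocalRing.residue_eq_zero_iff,
    ← IsLocalRing.residue_eq_zero_iff, map_sub, sub_eq_zero]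

lemma isScalarMod_one : IsScalarMod (1 : Matrix (Fin 2) (Fin 2) R) := by
  rw [isScalarMod_iff_residue]
  simp

lemma IsScalarMod.mul {S T : Matrix (Fin 2) (Fin 2) R} (hS : IsScalarMod S)
    (hT : IsScalarMod T) : IsScalarMod (S * T) := by
  rw [isScalarMod_iff_residue] at hS hT ⊢
  obtain ⟨s01, s10, s00⟩ := hS
  obtain ⟨t01, t10, t00⟩ := hT
  simp only [Matrix.mul_apply, Fin.sum_univ_two, map_add, map_mul]
  refine ⟨?_, ?_, ?_⟩
  · rw [s01, t01]; ring
  · rw [s10, t10]; ring
  · rw [s01, s10, t01, t10, s00, t00]; ring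

lemma IsScalarMod.pow {T : Matrix (Fin 2) (Fin 2) R} (hT : IsScalarMod T) (j : ℕ) :
    IsScalarMod (T ^ j) := by
  induction j with
  | zero => simpa using isScalarMod_one
  | succ j ih => rw [pow_succ]; exact ih.mul hT

/-- A scalar multiple by a unit of the ring. -/
lemma isScalarMod_of_smul {T : Matrix (Fin 2) (Fin 2) R} {u : R} (hu : IsUnit u)
    (h : IsScalarMod (u • T)) : IsScalarMod T := by
  rw [isScalarMod_iff_residue] at h ⊢
  have hu' : IsLocalRing.residue R u ≠ 0 := by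
    intro h0
    rw [IsLocalRing.residue_eq_zero_iff] at h0
    exact h0 hu
  simp only [Matrix.smul_apply, smul_eq_mul, map_mul] at h
  obtain ⟨h01, h10, h00⟩ := h
  refine ⟨?_, ?_, ?_⟩
  · exact (mul_eq_zero.mp h01).resolve_left hu'
  · exact (mul_eq_zero.mp h10).resolve_left hu'
  · exact mul_left_cancel₀ hu' h00

/-- The adjugate of a scalar-mod-`𝔪` matrix is scalar mod `𝔪`. -/
lemma IsScalarMod.adjugate {T : Matrix (Fin 2) (Fin 2) R} (hT : IsScalarMod T) :
    IsScalarMod T.adjugate := by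
  rw [isScalarMod_iff_residue] at hT ⊢
  obtain ⟨t01, t10, t00⟩ := hT
  rw [Matrix.adjugate_fin_two]
  simp only [Matrix.of_apply, Matrix.cons_val_zero, Matrix.cons_val_one, Matrix.cons_val',
    Matrix.cons_val_fin_one, map_neg]
  exact ⟨by rw [t01, neg_zero], by rw [t10, neg_zero], t00.symm⟩

/-- If `S` is invertible and scalar mod `𝔪`, and `S * T` is scalar mod `𝔪`, so is `T`. -/
lemma isScalarMod_of_mul {S T : Matrix (Fin 2) (Fin 2) R} (hSu : IsUnit S.det)
    (hS : IsScalarMod S) (hST : IsScalarMod (S * T)) : IsScalarMod T := by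
  have h := hS.adjugate.mul hST
  rw [← Matrix.mul_assoc, Matrix.adjugate_mul, Matrix.smul_mul, Matrix.one_mul] at h
  exact isScalarMod_of_smul hSu h

omit [IsLocalRing R] in
/-- Cayley–Hamilton for `2 × 2` matrices, explicit form. -/
lemma cayley_two (T : Matrix (Fin 2) (Fin 2) R) :
    T * T - T.trace • T + T.det • (1 : Matrix (Fin 2) (Fin 2) R) = 0 := by
  ext i j
  fin_cases i <;> fin_cases j <;>
    simp [Matrix.mul_apply, Fin.sum_univ_two, Matrix.trace_fin_two, Matrix.det_fin_two] <;> ring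

omit [IsLocalRing R] in
/-- Cayley–Hamilton minus the given relation. -/
lemma sub_smul_eq_of_relation {T : Matrix (Fin 2) (Fin 2) R} {a l : R}
    (h : T * T - a • T + l • (1 : Matrix (Fin 2) (Fin 2) R) = 0) :
    (T.trace - a) • T = (T.det - l) • (1 : Matrix (Fin 2) (Fin 2) R) := by
  have hc := cayley_two T
  have : (T.trace - a) • T - (T.det - l) • (1 : Matrix (Fin 2) (Fin 2) R)
      = (T * T - a • T + l • (1 : Matrix (Fin 2) (Fin 2) R))
        - (T * T - T.trace • T + T.det • (1 : Matrix (Fin 2) (Fin 2) R)) := by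
    simp only [sub_smul]
    abel
  rw [h, hc, sub_zero] at this
  exact sub_eq_zero.mp this

/-- If `T² - a T + ℓ = 0` and `T` is not scalar modulo `𝔪`, then `tr T = a` and `det T = ℓ`. -/
lemma trace_det_of_not_isScalarMod {T : Matrix (Fin 2) (Fin 2) R} {a l : R}
    (h : T * T - a • T + l • (1 : Matrix (Fin 2) (Fin 2) R) = 0) (hT : ¬ IsScalarMod T) :
    T.trace = a ∧ T.det = l := by
  have hsub := sub_smul_eq_of_relation h
  have e01 := congrFun (congrFun hsub 0) 1
  have e10 := congrFun (congrFun hsub 1) 0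
  have e00 := congrFun (congrFun hsub 0) 0
  have e11 := congrFun (congrFun hsub 1) 1
  simp only [Matrix.smul_apply, smul_eq_mul, Matrix.one_apply, Fin.isValue, ne_eq,
    zero_ne_one, one_ne_zero, not_false_eq_true, if_false, if_true, mul_zero, mul_one,
    Fin.reduceEq] at e01 e10 e00 e11
  have hu : T.trace - a = 0 := by
    by_contra hne
    apply hT
    have key : ∀ x : R, (T.trace - a) * x = 0 → x ∈ IsLocalRing.maximalIdeal R := by
      intro x hx
      by_contra hxm
      have hxu : IsUnit x := by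
        rwa [IsLocalRing.mem_maximalIdeal, mem_nonunits_iff, not_not] at hxm
      exact hne (hxu.mul_left_eq_zero.mp hx)
    refine ⟨key _ e01, key _ e10, key _ ?_⟩
    rw [mul_sub, e00, e11, sub_self]
  refine ⟨sub_eq_zero.mp hu, ?_⟩
  rw [hu, zero_mul] at e00
  exact sub_eq_zero.mp e00.symm

omit [IsLocalRing R] in
/-- If `T² - a T + ℓ = 0`, `det T = ℓ` and `det T` is a unit, then `tr T = a`. -/
lemma trace_of_det {T : Matrix (Fin 2) (Fin 2) R} {a l : R}
    (h : T * T - a • T + l • (1 : Matrix (Fin 2) (Fin 2) R) = 0) (hd : T.det = l)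
    (hu : IsUnit T.det) : T.trace = a := by
  have hsub := sub_smul_eq_of_relation h
  rw [hd, sub_self, zero_smul] at hsub
  -- multiply by the adjugate
  have h2 : (T.trace - a) • (T.det • (1 : Matrix (Fin 2) (Fin 2) R)) = 0 := by
    rw [← Matrix.mul_adjugate, ← Matrix.smul_mul, hsub, Matrix.zero_mul]
  have h3 := congrFun (congrFun h2 0) 0
  simp only [Matrix.smul_apply, smul_eq_mul, Matrix.one_apply, if_true, mul_one,
    Matrix.zero_apply] at h3
  exact sub_eq_zero.mp (hu.mul_left_eq_zero.mp h3)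

section Group

variable {G : Type*} [Group G]

omit [IsLocalRing R] in
lemma isUnit_det_of_monoidHom (ρ : G →* Matrix (Fin 2) (Fin 2) R) (g : G) :
    IsUnit (ρ g).det := by
  have h : ρ g * ρ g⁻¹ = 1 := by rw [← map_mul, mul_inv_cancel, map_one]
  have := congrArg Matrix.det h
  rw [Matrix.det_mul, Matrix.det_one] at this
  exact IsUnit.of_mul_eq_one _ this

/-- **Determinant and trace from the Frobenius relation** (indexed form).  `ρ : G →* M₂(R)` over
a local ring, `χ : G →* R`, a family `τ i` of elements satisfying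
`ρ (τ i) ² - a i • ρ (τ i) + χ (τ i) = 0`, dense in the weak sense that every `g` is a power of
some `τ i` modulo `ker ρ ∩ ker χ`.  If the image of `ρ` is not scalar modulo `𝔪`, then
`det ρ = χ` everywhere and `tr ρ (τ i) = a i` for all `i`. -/
theorem det_trace_of_relation_indexed {ι : Type*} (ρ : G →* Matrix (Fin 2) (Fin 2) R)
    (χ : G →* R) (τ : ι → G) (a : ι → R)
    (hBr : ∀ i, ρ (τ i) * ρ (τ i) - a i • ρ (τ i)
      + χ (τ i) • (1 : Matrix (Fin 2) (Fin 2) R) = 0)
    (hdens : ∀ g : G, ∃ i, ∃ j : ℕ, ρ g = ρ (τ i) ^ j ∧ χ g = χ (τ i) ^ j)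
    (g₀ : G) (hg₀ : ¬ IsScalarMod (ρ g₀)) :
    (∀ g, (ρ g).det = χ g) ∧ ∀ i, (ρ (τ i)).trace = a i := by
  -- non-scalar elements
  have hns : ∀ g, ¬ IsScalarMod (ρ g) → (ρ g).det = χ g := by
    intro g hg
    obtain ⟨i, j, hρ, hχ⟩ := hdens g
    have hτns : ¬ IsScalarMod (ρ (τ i)) := fun hs => hg (hρ ▸ hs.pow j)
    have hdet := (trace_det_of_not_isScalarMod (hBr i) hτns).2
    rw [hρ, hχ, Matrix.det_pow, hdet]
  have hdet : ∀ g, (ρ g).det = χ g := by
    intro g
    by_cases hg : IsScalarMod (ρ g)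
    · have hgg₀ : ¬ IsScalarMod (ρ (g * g₀)) := by
        intro hs
        rw [map_mul] at hs
        exact hg₀ (isScalarMod_of_mul (isUnit_det_of_monoidHom ρ g) hg hs)
      have h1 := hns (g * g₀) hgg₀
      have h2 := hns g₀ hg₀
      rw [map_mul, Matrix.det_mul, map_mul, h2] at h1
      have hu : IsUnit (χ g₀) := h2 ▸ isUnit_det_of_monoidHom ρ g₀
      exact hu.mul_left_injective h1
    · exact hns g hg
  refine ⟨hdet, fun i => ?_⟩
  exact trace_of_det (hBr i) (hdet (τ i)) (isUnit_det_of_monoidHom ρ (τ i))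

/-- **Determinant and trace from the Frobenius relation.**  `ρ : G →* M₂(R)` over a local ring,
`χ : G →* R`, a set `Frob` of elements satisfying `ρ τ ² - a τ • ρ τ + χ τ = 0`, dense in the weak
sense that every `g` is a power of some `τ ∈ Frob` modulo `ker ρ ∩ ker χ`.  If the image of `ρ` is
not scalar modulo `𝔪`, then `det ρ = χ` everywhere and `tr ρ τ = a τ` on `Frob`. -/
theorem det_trace_of_relation (ρ : G →* Matrix (Fin 2) (Fin 2) R) (χ : G →* R) (Frob : Set G)
    (a : G → R)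
    (hBr : ∀ τ ∈ Frob, ρ τ * ρ τ - a τ • ρ τ + χ τ • (1 : Matrix (Fin 2) (Fin 2) R) = 0)
    (hdens : ∀ g : G, ∃ τ ∈ Frob, ∃ j : ℕ, ρ g = ρ τ ^ j ∧ χ g = χ τ ^ j)
    (g₀ : G) (hg₀ : ¬ IsScalarMod (ρ g₀)) :
    (∀ g, (ρ g).det = χ g) ∧ ∀ τ ∈ Frob, (ρ τ).trace = a τ := by
  obtain ⟨h1, h2⟩ := det_trace_of_relation_indexed ρ χ (fun t : Frob => (t : G))
    (fun t : Frob => a t) (fun t => hBr t t.2)
    (fun g => by
      obtain ⟨τ, hτ, j, h⟩ := hdens g
      exact ⟨⟨τ, hτ⟩, j, h⟩) g₀ hg₀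
  exact ⟨h1, fun τ hτ => h2 ⟨τ, hτ⟩⟩

end Group

end Fermat.Agent.FrobTrace
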