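import Fermat.Agent.Lib.FrobTrace.DetTrace
import Fermat.Agent.Lib.FrobDensity.Main
import Fermat.Agent.Lib.Cyclo.ModCharGlobal

/-!
# Determinant and trace of a `G_ℚ`-representation from the Frobenius relations (helper96)

`ρ : G_ℚ →* M₂(R)` with open kernel over a local ring `R` which is a `ZMod n`-algebra, such that
for all primes `ℓ` outside a finite set `S` (containing the prime divisors of `n`) and every
Frobenius element `τ` at `ℓ`:  `ρ τ ² - a ℓ • ρ τ + ℓ = 0`.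
If some `ρ g₀` is not scalar modulo the maximal ideal, then `det ρ` is the mod `n` cyclotomic
character, and `tr ρ τ = a ℓ`, `det ρ τ = ℓ` for ALL such Frobenius elements.
No Weil pairing is used: the input is the relation (from `F1.frobCharEq` + reduction) and the
weak Chebotarev theorem `Lib/FrobDensity`.
-/

set_option autoImplicit false

open Matrix

namespace Fermat.Agent.FrobTrace

open Fermat.Agent.Cyclo (Qb GQ modChar)

/-- The kernel of the mod `n` cyclotomic character is open. -/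
theorem isOpen_modChar_eq_one (n : ℕ) [NeZero n] : IsOpen {σ : GQ | modChar n σ = 1} := by
  obtain ⟨L, hfd, -, hL⟩ := Fermat.Agent.Cyclo.modChar_finiteLevel n
  have hopen : IsOpen (L.fixingSubgroup : Set GQ) := L.fixingSubgroup_isOpen
  have hle : L.fixingSubgroup ≤ (modChar n).ker := by
    intro σ hσ
    rw [MonoidHom.mem_ker]
    apply hL
    intro x hx
    exact (IntermediateField.mem_fixingSubgroup_iff L σ).mp hσ x hx
  have := Subgroup.isOpen_mono hle hopen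
  have hset : ((modChar n).ker : Set GQ) = {σ : GQ | modChar n σ = 1} := by
    ext σ
    simp [MonoidHom.mem_ker]
  rw [← hset]
  exact this

variable {R : Type*} [CommRing R] [IsLocalRing R]

/-- **Determinant and trace of Frobenius from the Frobenius relations** (`G_ℚ`-version). -/
theorem det_trace_of_frobenius (n : ℕ) [NeZero n] (φ : ZMod n →+* R)
    (ρ : GQ →* Matrix (Fin 2) (Fin 2) R) (hρ : IsOpen {σ : GQ | ρ σ = 1}) (S : Finset ℕ)
    (a : ℕ → R) (hS : ∀ ℓ : ℕ, ℓ.Prime → ℓ ∣ n → ℓ ∈ S)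
    (hBr : ∀ ℓ : ℕ, ℓ.Prime → ℓ ∉ S → ∀ (A : ValuationSubring Qb) (τ : GQ),
      A.LiesOverPrime ℓ → A.IsFrobeniusAt τ ℓ →
        ρ τ * ρ τ - a ℓ • ρ τ + (ℓ : R) • (1 : Matrix (Fin 2) (Fin 2) R) = 0)
    (g₀ : GQ) (hg₀ : ¬ IsScalarMod (ρ g₀)) :
    (∀ g : GQ, (ρ g).det = φ ((modChar n g : (ZMod n)ˣ) : ZMod n)) ∧
      ∀ ℓ : ℕ, ℓ.Prime → ℓ ∉ S → ∀ (A : ValuationSubring Qb) (τ : GQ),
        A.LiesOverPrime ℓ → A.IsFrobeniusAt τ ℓ →
          (ρ τ).trace = a ℓ ∧ (ρ τ).det = (ℓ : R) := by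
  classical
  -- the character
  let χ : GQ →* R := (φ : ZMod n →* R).comp ((Units.coeHom (ZMod n)).comp (modChar n))
  have hχ : ∀ g, χ g = φ ((modChar n g : (ZMod n)ˣ) : ZMod n) := fun g => rfl
  have hχF : ∀ ℓ : ℕ, ℓ.Prime → ℓ ∉ S → ∀ (A : ValuationSubring Qb) (τ : GQ),
      A.LiesOverPrime ℓ → A.IsFrobeniusAt τ ℓ → χ τ = (ℓ : R) := by
    intro ℓ hℓ hℓS A τ hA hτ
    have hn : ¬ ℓ ∣ n := fun h => hℓS (hS ℓ hℓ h)
    rw [hχ, Fermat.Agent.Cyclo.modChar_frobenius n hℓ hn A hA τ hτ, map_natCast]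
  -- the index type of Frobenius elements
  let ι : Type := {x : ℕ × ValuationSubring Qb × GQ //
    x.1.Prime ∧ x.1 ∉ S ∧ x.2.1.LiesOverPrime x.1 ∧ x.2.1.IsFrobeniusAt x.2.2 x.1}
  -- density
  let U : Subgroup GQ := ρ.ker ⊓ (modChar n).ker
  have hUn : U.Normal := Subgroup.normal_inf_normal _ _
  have hU : IsOpen (U : Set GQ) := by
    have : (U : Set GQ) = {σ | ρ σ = 1} ∩ {σ | modChar n σ = 1} := by
      ext σ
      simp [U, MonoidHom.mem_ker]
    rw [this]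
    exact hρ.inter (isOpen_modChar_eq_one n)
  have hdens : ∀ g : GQ, ∃ i : ι, ∃ j : ℕ, ρ g = ρ i.1.2.2 ^ j ∧ χ g = χ i.1.2.2 ^ j := by
    intro g
    obtain ⟨ℓ, A, τ, k, j, hℓ, hℓS, hA, hτ, -, hj⟩ :=
      Fermat.Agent.FrobDensity.frobenius_density_open U hU g S
    refine ⟨⟨(ℓ, A, τ), hℓ, hℓS, hA, hτ⟩, j, ?_, ?_⟩
    · have h1 : ρ (g⁻¹ * τ ^ j) = 1 := MonoidHom.mem_ker.mp hj.1
      have : ρ g * ρ (g⁻¹ * τ ^ j) = ρ τ ^ j := by
        rw [← map_mul, mul_inv_cancel_left, map_pow]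
      rw [h1, mul_one] at this
      exact this
    · have h1 : modChar n (g⁻¹ * τ ^ j) = 1 := MonoidHom.mem_ker.mp hj.2
      have h2 : χ (g⁻¹ * τ ^ j) = 1 := by
        rw [hχ, h1, Units.val_one, map_one]
      have : χ g * χ (g⁻¹ * τ ^ j) = χ τ ^ j := by
        rw [← map_mul, mul_inv_cancel_left, map_pow]
      rw [h2, mul_one] at this
      exact this
  obtain ⟨hdet, htr⟩ := det_trace_of_relation_indexed ρ χ (fun i : ι => i.1.2.2)
    (fun i : ι => a i.1.1)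
    (fun i => by
      obtain ⟨⟨ℓ, A, τ⟩, hℓ, hℓS, hA, hτ⟩ := i
      show ρ τ * ρ τ - a ℓ • ρ τ + χ τ • (1 : Matrix (Fin 2) (Fin 2) R) = 0
      rw [hχF ℓ hℓ hℓS A τ hA hτ]
      exact hBr ℓ hℓ hℓS A τ hA hτ)
    hdens g₀ hg₀
  refine ⟨fun g => by rw [hdet g, hχ], fun ℓ hℓ hℓS A τ hA hτ => ⟨?_, ?_⟩⟩
  · exact htr ⟨(ℓ, A, τ), hℓ, hℓS, hA, hτ⟩
  · rw [hdet τ, hχF ℓ hℓ hℓS A τ hA hτ]

end Fermat.Agent.FrobTrace
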