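import Mathlib

/-!
# Lib / FrobTrace / LinAlg: from a quadratic relation to the characteristic polynomial (helper65)

An endomorphism `f` of a 2-dimensional space with `f² - a f + b = 0` has characteristic polynomial
`X² - a X + b`, provided the scalar case is excluded by hand (`f = c` implies `2 c = a`).
-/

set_option autoImplicit false

open Polynomial

namespace Fermat.Agent.FrobTrace

/-- matrix form -/
theorem matrix_charpoly_eq_of_quadratic {K : Type*} [Field K] (M : Matrix (Fin 2) (Fin 2) K)
    (a b : K) (hrel : M * M - a • M + b • (1 : Matrix (Fin 2) (Fin 2) K) = 0)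
    (hscal : ∀ c : K, M = c • (1 : Matrix (Fin 2) (Fin 2) K) → 2 * c = a) :
    M.charpoly = X ^ 2 - C a * X + C b := by
  have hCH := Matrix.aeval_self_charpoly M
  rw [Matrix.charpoly_fin_two] at hCH ⊢
  simp only [map_add, map_sub, map_mul, map_pow, aeval_X, aeval_C, Algebra.algebraMap_eq_smul_one]
    at hCH
  have hCH' : M * M - M.trace • M + M.det • (1 : Matrix (Fin 2) (Fin 2) K) = 0 := by
    rw [← hCH, pow_two, smul_mul_assoc, one_mul]
  have hdiff : (a - M.trace) • M = (b - M.det) • (1 : Matrix (Fin 2) (Fin 2) K) := by
    have h := congrArg₂ (· - ·) hCH' hrel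
    simp only [sub_zero] at h
    have h2 : (a - M.trace) • M - (b - M.det) • (1 : Matrix (Fin 2) (Fin 2) K)
        = (M * M - M.trace • M + M.det • (1 : Matrix (Fin 2) (Fin 2) K))
          - (M * M - a • M + b • (1 : Matrix (Fin 2) (Fin 2) K)) := by
      simp only [sub_smul]
      abel
    rw [← sub_eq_zero, h2, h]
  have htr : M.trace = a := by
    by_contra hne
    have hne' : a - M.trace ≠ 0 := sub_ne_zero.mpr (Ne.symm hne)
    have hM : M = ((a - M.trace)⁻¹ * (b - M.det)) • (1 : Matrix (Fin 2) (Fin 2) K) := by
      have := congrArg (fun N => (a - M.trace)⁻¹ • N) hdiff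
      simp only [smul_smul, inv_mul_cancel₀ hne', one_smul] at this
      exact this
    have h2 := hscal _ hM
    apply hne
    rw [← h2]
    conv_lhs => rw [hM]
    simp [Matrix.trace_fin_two]
    ring
  have hdet : M.det = b := by
    rw [htr, sub_self, zero_smul] at hdiff
    have h00 := congrFun (congrFun hdiff 0) 0
    simp at h00
    exact (sub_eq_zero.mp h00.symm).symm
  rw [htr, hdet]

/-- endomorphism form -/
theorem charpoly_eq_of_quadratic {K V : Type*} [Field K] [AddCommGroup V] [Module K V]
    [Module.Finite K V] (hV : Module.finrank K V = 2) (f : Module.End K V) (a b : K)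
    (hrel : f * f - a • f + b • (1 : Module.End K V) = 0)
    (hscal : ∀ c : K, f = c • (1 : Module.End K V) → 2 * c = a) :
    f.charpoly = X ^ 2 - C a * X + C b := by
  let bs : Module.Basis (Fin 2) K V := Module.finBasisOfFinrankEq K V hV
  rw [← LinearMap.charpoly_toMatrix f bs]
  apply matrix_charpoly_eq_of_quadratic
  · have h := congrArg (LinearMap.toMatrix bs bs) hrel
    simpa [LinearMap.toMatrix_mul, Module.End.mul_eq_comp, LinearMap.toMatrix_comp bs bs bs] using h
  · intro c hc
    apply hscal c
    apply (LinearMap.toMatrix bs bs).injective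
    rw [hc]
    simp

end Fermat.Agent.FrobTrace
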