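import Fermat.Agent.Lib.FrobTrace.DetCycloEll
import Fermat.Agent.Lib.FrobTrace.CharEqAll

/-!
# FrobTrace / MainAll: trace and determinant of Frobenius on `E[p^j](Q̄)` at EVERY good prime
(helper51)

`W / ℤ`, `ℓ` ANY good prime (`ℓ = 2, 3` included), `p ≠ ℓ` prime, `τ` a Frobenius element at a
valuation subring `A | ℓ` of `Q̄`: on `E[p^j](Q̄)`, `tr τ = a_ℓ(W)` and `det τ = ℓ` in `ZMod (p^j)`.

Proof: `det τ = χ_{p^j}(τ) = ℓ` (`galois_det_eq_modChar`, helper96, global argument from the primes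
`≥ 5`), `τ² - a_ℓ τ + ℓ = 0` on `E[p^j]` (`frobCharEq_all` through the reduction map), and
Cayley–Hamilton on the free rank-2 module `E[p^j]`: `(tr τ - a_ℓ) τ = 0`, `τ` invertible.
-/

set_option autoImplicit false
set_option linter.style.haveILetI false

open WeierstrassCurve WeierstrassCurve.Affine WeierstrassCurve.Affine.Point

namespace Fermat.Agent.FrobTrace

open Fermat.Agent.S52 (frobPt)
open Fermat.Agent.Cyclo (Qb GQ modChar)

section LinAlg

/-- Cayley–Hamilton for `2 × 2` matrices over a commutative ring -/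
theorem matrix_two_cayley_hamilton {R : Type*} [CommRing R] (M : Matrix (Fin 2) (Fin 2) R) :
    M * M - M.trace • M + M.det • (1 : Matrix (Fin 2) (Fin 2) R) = 0 := by
  ext i j
  fin_cases i <;> fin_cases j <;>
    simp [Matrix.mul_apply, Fin.sum_univ_two, Matrix.trace_fin_two, Matrix.det_fin_two] <;> ring

/-- a quadratic relation with the right (invertible) constant term determines the trace -/
theorem matrix_trace_eq_of_quadratic_of_det {R : Type*} [CommRing R]
    (M : Matrix (Fin 2) (Fin 2) R) (a b : R)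
    (hrel : M * M - a • M + b • (1 : Matrix (Fin 2) (Fin 2) R) = 0) (hdet : M.det = b)
    (hb : IsUnit b) : M.trace = a := by
  have hCH := matrix_two_cayley_hamilton M
  rw [hdet] at hCH
  have hdiff : (a - M.trace) • M = 0 := by
    have h2 : (a - M.trace) • M
        = (M * M - M.trace • M + b • (1 : Matrix (Fin 2) (Fin 2) R))
          - (M * M - a • M + b • (1 : Matrix (Fin 2) (Fin 2) R)) := by
      simp only [sub_smul]
      abel
    rw [h2, hCH, hrel, sub_zero]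
  have hent : ∀ i j, (a - M.trace) * M i j = 0 := by
    intro i j
    have := congrFun (congrFun hdiff i) j
    simpa using this
  have hd : (a - M.trace) * b = 0 := by
    rw [← hdet, Matrix.det_fin_two]
    have h00 := hent 0 0
    have h01 := hent 0 1
    linear_combination (M 1 1) * h00 - (M 1 0) * h01
  have : a - M.trace = 0 := by
    obtain ⟨u, rfl⟩ := hb
    have := congrArg (fun z => z * (↑u⁻¹ : R)) hd
    simpa [mul_assoc] using this
  exact (sub_eq_zero.mp this).symm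

/-- endomorphism form -/
theorem end_trace_eq_of_quadratic_of_det {R V : Type*} [CommRing R] [AddCommGroup V]
    [Module R V] (bs : Module.Basis (Fin 2) R V) (f : Module.End R V) (a b : R)
    (hrel : f * f - a • f + b • (1 : Module.End R V) = 0) (hdet : LinearMap.det f = b)
    (hb : IsUnit b) : LinearMap.trace R V f = a := by
  rw [LinearMap.trace_eq_matrix_trace R bs f]
  apply matrix_trace_eq_of_quadratic_of_det _ a b _ _ hb
  · have h := congrArg (LinearMap.toMatrix bs bs) hrel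
    simpa [LinearMap.toMatrix_mul, Module.End.mul_eq_comp, LinearMap.toMatrix_comp bs bs bs]
      using h
  · rw [LinearMap.det_toMatrix]
    exact hdet

end LinAlg

section Basis

variable {G : Type*} [AddCommGroup G]

/-- `G[p^j]` is free of rank 2 over `ZMod (p^j)` -/
theorem exists_basis_torsionBy (p : ℕ) [Fact p.Prime]
    (hcard : Nat.card (Submodule.torsionBy ℤ G ((p ^ 1 : ℕ) : ℤ)) = p ^ (2 * 1))
    (hdiv : ∀ x : G, (∃ n : ℕ, (p : ℤ) ^ n • x = 0) → ∃ y : G, (p : ℤ) • y = x)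
    (j : ℕ) [Module (ZMod (p ^ j)) (Submodule.torsionBy ℤ G ((p ^ j : ℕ) : ℤ))] :
    Nonempty (Module.Basis (Fin 2) (ZMod (p ^ j))
      (Submodule.torsionBy ℤ G ((p ^ j : ℕ) : ℤ))) := by
  classical
  obtain ⟨e₁, e₂, he₁, he₂, hind, hspan⟩ := abs_basis (G := G) p hcard hdiv j
  obtain ⟨hind', hspan'⟩ := abs_descend p j 1 e₁ e₂ hind hspan
  have hb₁ : (p : ℤ) ^ 1 • e₁ ∈ Submodule.torsionBy ℤ G ((p ^ j : ℕ) : ℤ) := by
    rw [Submodule.mem_torsionBy_iff, Nat.cast_pow, smul_smul, ← pow_add]; exact he₁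
  have hb₂ : (p : ℤ) ^ 1 • e₂ ∈ Submodule.torsionBy ℤ G ((p ^ j : ℕ) : ℤ) := by
    rw [Submodule.mem_torsionBy_iff, Nat.cast_pow, smul_smul, ← pow_add]; exact he₂
  set v : Fin 2 → Submodule.torsionBy ℤ G ((p ^ j : ℕ) : ℤ) :=
    ![⟨(p : ℤ) ^ 1 • e₁, hb₁⟩, ⟨(p : ℤ) ^ 1 • e₂, hb₂⟩] with hv
  have hv0 : ((v 0 : Submodule.torsionBy ℤ G ((p ^ j : ℕ) : ℤ)) : G) = (p : ℤ) ^ 1 • e₁ := rfl
  have hv1 : ((v 1 : Submodule.torsionBy ℤ G ((p ^ j : ℕ) : ℤ)) : G) = (p : ℤ) ^ 1 • e₂ := rfl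
  have hcomb : ∀ (m n : ℤ),
      (((m : ZMod (p ^ j)) • v 0 + (n : ZMod (p ^ j)) • v 1 :
        Submodule.torsionBy ℤ G ((p ^ j : ℕ) : ℤ)) : G)
        = m • ((p : ℤ) ^ 1 • e₁) + n • ((p : ℤ) ^ 1 • e₂) := by
    intro m n
    rw [Int.cast_smul_eq_zsmul, Int.cast_smul_eq_zsmul, Submodule.coe_add,
      Submodule.coe_smul_of_tower, Submodule.coe_smul_of_tower, hv0, hv1]
  have hli : LinearIndependent (ZMod (p ^ j)) v := by
    rw [Fintype.linearIndependent_iff]
    intro g hg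
    rw [Fin.sum_univ_two, ← ZMod.intCast_zmod_cast (g 0), ← ZMod.intCast_zmod_cast (g 1)] at hg
    have h0 := congrArg Subtype.val hg
    rw [hcomb, ZeroMemClass.coe_zero] at h0
    obtain ⟨hm, hn⟩ := hind' _ _ h0
    have hm' : g 0 = 0 := by
      rw [← ZMod.intCast_zmod_cast (g 0)]
      exact (ZMod.intCast_zmod_eq_zero_iff_dvd _ _).mpr (by rw [Nat.cast_pow]; exact hm)
    have hn' : g 1 = 0 := by
      rw [← ZMod.intCast_zmod_cast (g 1)]
      exact (ZMod.intCast_zmod_eq_zero_iff_dvd _ _).mpr (by rw [Nat.cast_pow]; exact hn)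
    intro i
    fin_cases i
    · exact hm'
    · exact hn'
  have hsp : ⊤ ≤ Submodule.span (ZMod (p ^ j)) (Set.range v) := by
    rintro ⟨x, hx⟩ -
    rw [Submodule.mem_torsionBy_iff, Nat.cast_pow] at hx
    obtain ⟨m, n, hmn⟩ := hspan' x hx
    have : (⟨x, by rw [Submodule.mem_torsionBy_iff, Nat.cast_pow]; exact hx⟩ :
        Submodule.torsionBy ℤ G ((p ^ j : ℕ) : ℤ))
        = (m : ZMod (p ^ j)) • v 0 + (n : ZMod (p ^ j)) • v 1 := by
      apply Subtype.ext
      rw [hcomb]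
      exact hmn
    rw [this]
    exact Submodule.add_mem _
      (Submodule.smul_mem _ _ (Submodule.subset_span ⟨0, rfl⟩))
      (Submodule.smul_mem _ _ (Submodule.subset_span ⟨1, rfl⟩))
  exact ⟨Module.Basis.mk hli hsp⟩

end Basis

/-- **Trace and determinant of Frobenius at every good prime** (`ℓ = 2, 3` included). -/
theorem galois_trace_det_frobenius_all (W : WeierstrassCurve ℤ) {ℓ p : ℕ} [Fact ℓ.Prime]
    [Fact p.Prime] (hℓp : ℓ ≠ p) (hgood : W.IsGoodPrimeFor ℓ)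
    [DecidableEq (AlgebraicClosure ℚ)]
    (A : ValuationSubring (AlgebraicClosure ℚ)) (hA : A.LiesOverPrime ℓ)
    (τ : AlgebraicClosure ℚ ≃ₐ[ℚ] AlgebraicClosure ℚ) (hτ : A.IsFrobeniusAt τ ℓ) (j : ℕ) :
    galoisTrace ℚ (W.map (Int.castRingHom ℚ)) (p ^ j) τ = ((W.apOfModel ℓ : ℤ) : ZMod (p ^ j)) ∧
      LinearMap.det (galoisRepModuleEnd ℚ (K := AlgebraicClosure ℚ) (W.map (Int.castRingHom ℚ))
        (p ^ j) τ) = (((ℓ : ℤ)) : ZMod (p ^ j)) := by
  classical
  have hℓprime : ℓ.Prime := Fact.out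
  have hpprime : p.Prime := Fact.out
  haveI : NeZero (p ^ j) := ⟨pow_ne_zero j hpprime.ne_zero⟩
  -- instances on the residue field
  haveI : CharP (IsLocalRing.ResidueField A) ℓ := charP_residueField A hA
  letI : Algebra (ZMod ℓ) (IsLocalRing.ResidueField A) := ZMod.algebra _ ℓ
  haveI : IsAlgClosed (IsLocalRing.ResidueField A) := isAlgClosed_residueField A
  -- discriminants
  have hΔZ : W.Δ ≠ 0 := by
    intro h
    exact hgood (by rw [h]; exact dvd_zero _)
  have hΔ : ((W.map (Int.castRingHom ℚ))⁄(AlgebraicClosure ℚ)).Δ ≠ 0 := by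
    change ((W.map (Int.castRingHom ℚ)).map (algebraMap ℚ (AlgebraicClosure ℚ))).Δ ≠ 0
    rw [WeierstrassCurve.map_Δ, WeierstrassCurve.map_Δ]
    simpa using hΔZ
  have hΔℓ : (W.reductionMod ℓ).Δ ≠ 0 := by
    change (W.map (Int.castRingHom (ZMod ℓ))).Δ ≠ 0
    rw [WeierstrassCurve.map_Δ]
    intro h
    apply hgood
    have := (ZMod.intCast_zmod_eq_zero_iff_dvd W.Δ ℓ).mp (by simpa using h)
    exact this
  have hnot : ∀ n : ℕ, ¬ ℓ ∣ p ^ n := by
    intro n h
    have := (Nat.prime_dvd_prime_iff_eq hℓprime hpprime).mp (hℓprime.dvd_of_dvd_pow h)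
    exact hℓp this
  -- the determinant
  have hdet : LinearMap.det (galoisRepModuleEnd ℚ (K := AlgebraicClosure ℚ)
      (W.map (Int.castRingHom ℚ)) (p ^ j) τ) = (((ℓ : ℤ)) : ZMod (p ^ j)) := by
    have h1 := galois_det_eq_modChar W hΔZ (p := p) j τ
    rw [h1, Fermat.Agent.Cyclo.modChar_frobenius (p ^ j) hℓprime (hnot j) A hA τ hτ]
    simp
  refine ⟨?_, hdet⟩
  -- the relation
  obtain ⟨red, hinj, hfrob⟩ := exists_reduction W hgood A hA
  let T : ((W.map (Int.castRingHom ℚ))⁄(AlgebraicClosure ℚ)).Point →+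
      ((W.map (Int.castRingHom ℚ))⁄(AlgebraicClosure ℚ)).Point :=
    DistribSMul.toAddMonoidHom _ τ
  have hredT : ∀ x, red (T x) = frobPt (W.reductionMod ℓ) (IsLocalRing.ResidueField A) (red x) :=
    fun x => hfrob τ hτ x
  have hCH : ∀ x : ((W.map (Int.castRingHom ℚ))⁄(AlgebraicClosure ℚ)).Point,
      (∃ n : ℕ, (p ^ n) • x = 0) → T (T x) - W.apOfModel ℓ • T x + (ℓ : ℤ) • x = 0 := by
    rintro x ⟨n, hn⟩
    apply hinj (p ^ n) (hnot n)
    · have hn' : ((p ^ n : ℕ) : ℤ) • x = 0 := by rw [natCast_zsmul]; exact hn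
      have e : ((p ^ n : ℕ) : ℤ) • (T (T x) - W.apOfModel ℓ • T x + (ℓ : ℤ) • x)
          = T (T (((p ^ n : ℕ) : ℤ) • x)) - W.apOfModel ℓ • T (((p ^ n : ℕ) : ℤ) • x)
            + (ℓ : ℤ) • (((p ^ n : ℕ) : ℤ) • x) := by
        simp only [map_zsmul]
        module
      rw [← natCast_zsmul, e, hn']
      simp [zsmul_zero]
    · rw [map_add, map_sub, map_zsmul, map_zsmul, hredT, hredT]
      exact frobCharEq_all (W.reductionMod ℓ) hΔℓ _ (red x)
  -- a basis of `E[p^j]`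
  have hcard1 : Nat.card (Submodule.torsionBy ℤ
      ((W.map (Int.castRingHom ℚ))⁄(AlgebraicClosure ℚ)).Point ((p ^ 1 : ℕ) : ℤ)) = p ^ (2 * 1) := by
    rw [Fermat.Agent.Torsion.card_torsionBy hΔ (n := p ^ 1) (Nat.one_le_pow _ _ hpprime.pos)]
    ring
  have hdiv : ∀ x : ((W.map (Int.castRingHom ℚ))⁄(AlgebraicClosure ℚ)).Point,
      (∃ n : ℕ, (p : ℤ) ^ n • x = 0) → ∃ y, (p : ℤ) • y = x := by
    intro x _
    obtain ⟨y, hy⟩ := Fermat.Agent.Torsion.smul_surjective hΔ (n := p) hpprime.one_lt.le x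
    exact ⟨y, by rw [natCast_zsmul]; exact hy⟩
  obtain ⟨bs⟩ := exists_basis_torsionBy (G := ((W.map (Int.castRingHom ℚ))⁄(AlgebraicClosure ℚ)).Point)
    p hcard1 hdiv j
  -- conclusion
  rw [galoisTrace_def]
  apply end_trace_eq_of_quadratic_of_det bs _ _ (((ℓ : ℤ)) : ZMod (p ^ j)) _ hdet
  · rw [Int.cast_natCast]
    exact (ZMod.isUnit_iff_coprime ℓ (p ^ j)).mpr
      (Nat.Coprime.pow_right j ((Nat.coprime_primes hℓprime hpprime).mpr hℓp))
  · ext x
    have hx : ∃ n : ℕ, (p ^ n) • (x : ((W.map (Int.castRingHom ℚ))⁄(AlgebraicClosure ℚ)).Point) = 0 := by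
      refine ⟨j, ?_⟩
      have := x.2
      rw [Submodule.mem_torsionBy_iff] at this
      rw [← natCast_zsmul]
      exact this
    have := hCH x hx
    simp only [LinearMap.add_apply, LinearMap.sub_apply, Module.End.mul_apply,
      LinearMap.smul_apply, Module.End.one_apply, LinearMap.zero_apply, Submodule.coe_add,
      Submodule.coe_sub, ZeroMemClass.coe_zero, Int.cast_smul_eq_zsmul,
      Submodule.coe_smul_of_tower]
    exact this

end Fermat.Agent.FrobTrace
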