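import Fermat.Agent.Lib.FrobTrace.DetCycloEll
import Fermat.Agent.Lib.FrobTrace.Char3.CharEqOdd
import Fermat.Agent.Lib.TateModule.Rep

/-!
# FrobTrace / MainOdd: trace and determinant of Frobenius on `E[p^j](Q̄)` at the small primes
(helper96)

`galois_trace_det_frobenius` (Main.lean) needs `ℓ ≥ 5` because of the kernel bound.  Here the kernel
bound is NOT needed: the determinant of the Galois action on `E[p^j]` is the cyclotomic character
(`galois_det_eq_modChar`, from the primes `≥ 5` and weak Chebotarev), hence `det τ = ℓ` at EVERY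
Frobenius element at `ℓ ≠ p`, and then the relation `τ² - a_ℓ τ + ℓ = 0` (reduction + Cayley–Hamilton
of Frobenius on the reduced curve) gives `tr τ = a_ℓ` by pure linear algebra
(`(tr τ - a_ℓ) τ = 0` with `τ` invertible).

* `galois_trace_det_frobenius_of_charEq`: for any good prime `ℓ ≠ p`, given the relation on the
  reduced curve;
* `galois_trace_det_frobenius_odd`: every odd good prime `ℓ ≠ p` (in particular `ℓ = 3`).
-/

set_option autoImplicit false

open WeierstrassCurve WeierstrassCurve.Affine WeierstrassCurve.Affine.Point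

namespace Fermat.Agent.FrobTrace

open Fermat.Agent.Cyclo (Qb GQ modChar)
open Fermat.Agent.S52 (frobPt)

/-- Linear algebra: on a free module of rank `2`, `f² - a f + l = 0`, `det f = l` a unit imply
`tr f = a`. -/
theorem trace_eq_of_relation_of_det {R : Type*} [CommRing R] {V : Type*} [AddCommGroup V]
    [Module R V] (b : Module.Basis (Fin 2) R V) (f : Module.End R V) (a l : R)
    (h : f * f - a • f + l • (1 : Module.End R V) = 0) (hd : LinearMap.det f = l)
    (hu : IsUnit l) : LinearMap.trace R V f = a := by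
  have hM : LinearMap.toMatrix b b f * LinearMap.toMatrix b b f - a • LinearMap.toMatrix b b f
      + l • (1 : Matrix (Fin 2) (Fin 2) R) = 0 := by
    have := congrArg (LinearMap.toMatrix b b) h
    rw [map_add, map_sub, LinearMap.toMatrix_mul, map_smul, map_smul, LinearMap.toMatrix_one,
      _root_.map_zero] at this
    exact this
  have hdet : (LinearMap.toMatrix b b f).det = l := by
    rw [LinearMap.det_toMatrix b f, hd]
  rw [LinearMap.trace_eq_matrix_trace R b f]
  exact trace_of_det hM hdet (hdet ▸ hu)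

section Main

variable (W : WeierstrassCurve ℤ) {ℓ p : ℕ} [Fact ℓ.Prime] [Fact p.Prime] [DecidableEq Qb]

/-- a `ZMod (p^j)`-basis of `E[p^j](Q̄)` -/
theorem exists_basis_torsion (hΔ : W.Δ ≠ 0) (j : ℕ) :
    Nonempty (Module.Basis (Fin 2) (ZMod (p ^ j))
      (Submodule.torsionBy ℤ ((W.map (Int.castRingHom ℚ))⁄Qb).Point ((p ^ j : ℕ) : ℤ))) := by
  have hΔ' : (W.map (Int.castRingHom ℚ)).Δ ≠ 0 := by
    rw [WeierstrassCurve.map_Δ]
    simpa using hΔ
  let ρ := Fermat.Agent.TateModule.tateRep (W.map (Int.castRingHom ℚ)) p hΔ'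
  let b : Module.Basis (Fin 2) ℤ_[p] ρ.V := Module.finBasisOfFinrankEq ℤ_[p] ρ.V ρ.finrank_eq
  exact ⟨(Fermat.Agent.TateModule.tateRep_isReduction (p := p) hΔ' j).basis b⟩

/-- **Trace and determinant of Frobenius at a good prime `ℓ ≠ p`**, given the Cayley–Hamilton
relation of Frobenius on the reduction mod `ℓ`. -/
theorem galois_trace_det_frobenius_of_charEq (hℓp : ℓ ≠ p) (hgood : W.IsGoodPrimeFor ℓ)
    (hCE : ∀ (k : Type) [Field k] [Algebra (ZMod ℓ) k] [IsAlgClosed k] [DecidableEq k]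
      (P : ((W.reductionMod ℓ)⁄k).Point),
      frobPt (W.reductionMod ℓ) k (frobPt (W.reductionMod ℓ) k P)
        - (W.reductionMod ℓ).traceOfFrobenius • frobPt (W.reductionMod ℓ) k P + (ℓ : ℤ) • P = 0)
    (A : ValuationSubring Qb) (hA : A.LiesOverPrime ℓ) (τ : GQ) (hτ : A.IsFrobeniusAt τ ℓ)
    (j : ℕ) :
    galoisTrace ℚ (W.map (Int.castRingHom ℚ)) (p ^ j) τ = ((W.apOfModel ℓ : ℤ) : ZMod (p ^ j)) ∧
      LinearMap.det (galoisRepModuleEnd ℚ (K := Qb) (W.map (Int.castRingHom ℚ)) (p ^ j) τ)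
        = (((ℓ : ℤ)) : ZMod (p ^ j)) := by
  classical
  have hℓprime : ℓ.Prime := Fact.out
  have hpprime : p.Prime := Fact.out
  haveI : NeZero (p ^ j) := ⟨pow_ne_zero j hpprime.ne_zero⟩
  have hΔZ : W.Δ ≠ 0 := by
    intro h
    exact hgood (by rw [h]; exact dvd_zero _)
  have hnot : ¬ ℓ ∣ p ^ j := by
    intro h
    exact hℓp ((Nat.prime_dvd_prime_iff_eq hℓprime hpprime).mp (hℓprime.dvd_of_dvd_pow h))
  -- the determinant
  have hdet : LinearMap.det (galoisRepModuleEnd ℚ (K := Qb) (W.map (Int.castRingHom ℚ)) (p ^ j) τ)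
      = (((ℓ : ℤ)) : ZMod (p ^ j)) := by
    rw [galois_det_eq_modChar W hΔZ (p := p) j τ,
      Fermat.Agent.Cyclo.modChar_frobenius (p ^ j) hℓprime hnot A hA τ hτ]
    simp
  refine ⟨?_, hdet⟩
  -- instances on the residue field
  haveI : CharP (IsLocalRing.ResidueField A) ℓ := charP_residueField A hA
  letI : Algebra (ZMod ℓ) (IsLocalRing.ResidueField A) := ZMod.algebra _ ℓ
  haveI : IsAlgClosed (IsLocalRing.ResidueField A) := isAlgClosed_residueField A
  obtain ⟨red, hinj, hfrob⟩ := exists_reduction W hgood A hA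
  -- the relation on `E[p^j]`
  let T : ((W.map (Int.castRingHom ℚ))⁄Qb).Point →+ ((W.map (Int.castRingHom ℚ))⁄Qb).Point :=
    DistribSMul.toAddMonoidHom _ τ
  have hT : ∀ x, T x = τ • x := fun _ => rfl
  have hredT : ∀ x, red (T x) = frobPt (W.reductionMod ℓ) (IsLocalRing.ResidueField A) (red x) :=
    fun x => hfrob τ hτ x
  have hrel : ∀ x : ((W.map (Int.castRingHom ℚ))⁄Qb).Point, (p ^ j) • x = 0 →
      T (T x) - W.apOfModel ℓ • T x + (ℓ : ℤ) • x = 0 := by
    intro x hx
    apply hinj (p ^ j) hnot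
    · have hx' : ((p ^ j : ℕ) : ℤ) • x = 0 := by rw [natCast_zsmul]; exact hx
      have e : ((p ^ j : ℕ) : ℤ) • (T (T x) - W.apOfModel ℓ • T x + (ℓ : ℤ) • x)
          = T (T (((p ^ j : ℕ) : ℤ) • x)) - W.apOfModel ℓ • T (((p ^ j : ℕ) : ℤ) • x)
            + (ℓ : ℤ) • (((p ^ j : ℕ) : ℤ) • x) := by
        simp only [map_zsmul]
        module
      rw [← natCast_zsmul, e, hx']
      simp [zsmul_zero]
    · rw [map_add, map_sub, map_zsmul, map_zsmul, hredT, hredT]
      exact hCE _ (red x)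
  -- as endomorphisms
  set f := galoisRepModuleEnd ℚ (K := Qb) (W.map (Int.castRingHom ℚ)) (p ^ j) τ with hf
  have hEnd : f * f - ((W.apOfModel ℓ : ℤ) : ZMod (p ^ j)) • f
      + (((ℓ : ℤ)) : ZMod (p ^ j)) • (1 : Module.End (ZMod (p ^ j)) _) = 0 := by
    ext x
    have hx : (p ^ j) • (x : ((W.map (Int.castRingHom ℚ))⁄Qb).Point) = 0 := by
      have := x.2
      rw [Submodule.mem_torsionBy_iff] at this
      rw [← natCast_zsmul]
      exact this
    have := hrel x hx
    simp only [LinearMap.add_apply, LinearMap.sub_apply, Module.End.mul_apply,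
      LinearMap.smul_apply, Module.End.one_apply, LinearMap.zero_apply, Submodule.coe_add,
      Submodule.coe_sub, ZeroMemClass.coe_zero, Int.cast_smul_eq_zsmul,
      Submodule.coe_smul_of_tower]
    exact this
  obtain ⟨b⟩ := exists_basis_torsion W (p := p) hΔZ j
  have hu : IsUnit (((ℓ : ℤ)) : ZMod (p ^ j)) := by
    rw [Int.cast_natCast]
    exact (ZMod.isUnit_iff_coprime ℓ (p ^ j)).mpr
      (Nat.Coprime.pow_right j ((Nat.coprime_primes hℓprime hpprime).mpr hℓp))
  exact trace_eq_of_relation_of_det b f _ _ hEnd hdet hu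

/-- **Trace and determinant of Frobenius at every odd good prime `ℓ ≠ p`** (in particular
`ℓ = 3`). -/
theorem galois_trace_det_frobenius_odd (hℓ2 : ℓ ≠ 2) (hℓp : ℓ ≠ p) (hgood : W.IsGoodPrimeFor ℓ)
    (A : ValuationSubring Qb) (hA : A.LiesOverPrime ℓ) (τ : GQ) (hτ : A.IsFrobeniusAt τ ℓ)
    (j : ℕ) :
    galoisTrace ℚ (W.map (Int.castRingHom ℚ)) (p ^ j) τ = ((W.apOfModel ℓ : ℤ) : ZMod (p ^ j)) ∧
      LinearMap.det (galoisRepModuleEnd ℚ (K := Qb) (W.map (Int.castRingHom ℚ)) (p ^ j) τ)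
        = (((ℓ : ℤ)) : ZMod (p ^ j)) := by
  have hΔℓ : (W.reductionMod ℓ).Δ ≠ 0 := by
    change (W.map (Int.castRingHom (ZMod ℓ))).Δ ≠ 0
    rw [WeierstrassCurve.map_Δ]
    intro h
    apply hgood
    exact (ZMod.intCast_zmod_eq_zero_iff_dvd W.Δ ℓ).mp (by simpa using h)
  exact galois_trace_det_frobenius_of_charEq W hℓp hgood
    (fun k _ _ _ _ P => Fermat.Agent.FrobTrace.Char3.frobCharEq_gen_odd hℓ2 _ hΔℓ k P)
    A hA τ hτ j

end Main

end Fermat.Agent.FrobTrace
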