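import Mathlib

/-!
# Lib / FrobTrace / Newton: lifting a scalar action along the `p`-power torsion (helper65)

`G` an abelian group, `σ : G →+ G` with `σ² - a σ + ℓ = 0` on the `p`-power torsion.  If `σ` acts on
`G[p]` as the integer `c`, `p ∣ c² - a c + ℓ` and `p ∤ 2 c - a` (simple root), then for every `j` there
is an integer `c_j ≡ c mod p` such that `σ` acts on `G[p^j]` as `c_j` (Newton iteration).
-/

set_option autoImplicit false

namespace Fermat.Agent.FrobTrace

variable {G : Type*} [AddCommGroup G]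

/-- an integer multiple of a `n`-torsion element only depends on the integer mod `n` -/
lemma newton_zsmul_congr {n : ℕ} {x : G} (hx : n • x = 0) {u v : ℤ} (huv : u ≡ v [ZMOD n]) :
    u • x = v • x := by
  obtain ⟨t, ht⟩ := huv.symm.dvd
  have : u = v + (n : ℤ) * t := by linarith
  rw [this, add_smul, mul_comm, mul_smul, natCast_zsmul, hx, smul_zero, add_zero]

/-- one Newton step -/
lemma newton_step (σ : G →+ G) (p : ℕ) (hp : p.Prime) (a ℓ : ℤ) (c : ℤ)
    (hc : ∀ x : G, p • x = 0 → σ x = c • x) (hpc : ¬ (p : ℤ) ∣ 2 * c - a)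
    (j : ℕ) (cj : ℤ) (hcj : cj ≡ c [ZMOD p])
    (hroot : (p : ℤ) ∣ cj ^ 2 - a * cj + ℓ)
    (hσ : ∀ x : G, p ^ j • x = 0 → σ x = cj • x)
    (hrel : ∀ x : G, p ^ (j + 1) • x = 0 → σ (σ x) - a • σ x + ℓ • x = 0) :
    ∃ c' : ℤ, c' ≡ c [ZMOD p] ∧ (p : ℤ) ∣ c' ^ 2 - a * c' + ℓ ∧
      ∀ x : G, p ^ (j + 1) • x = 0 → σ x = c' • x := by
  -- `2 cj - a` is invertible mod `p ^ (j + 1)`
  have hunit : IsCoprime (2 * cj - a) ((p : ℤ) ^ (j + 1)) := by
    apply IsCoprime.pow_right
    rw [isCoprime_comm, Prime.coprime_iff_not_dvd (Nat.prime_iff_prime_int.mp hp)]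
    intro hdvd
    apply hpc
    have h1 : (p : ℤ) ∣ cj - c := hcj.symm.dvd
    have : 2 * c - a = (2 * cj - a) - 2 * (cj - c) := by ring
    rw [this]
    exact dvd_sub hdvd (Dvd.dvd.mul_left h1 2)
  obtain ⟨u, w, huw⟩ := hunit
  set D := cj ^ 2 - a * cj + ℓ with hD
  refine ⟨cj - u * D, ?_, ?_, ?_⟩
  · -- congruence mod p
    have : (p : ℤ) ∣ cj - u * D - cj := by
      have : cj - u * D - cj = -(u * D) := by ring
      rw [this, dvd_neg]
      exact Dvd.dvd.mul_left hroot u
    exact ((Int.modEq_iff_dvd.mpr (by simpa using this)).symm).trans hcj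
  · -- still a root mod p
    have h1 : (cj - u * D) ^ 2 - a * (cj - u * D) + ℓ
        = D + D * (u * (u * D - 2 * cj + a)) := by
      rw [hD]; ring
    rw [h1]
    exact dvd_add hroot (Dvd.dvd.mul_right hroot _)
  · intro x hx
    -- `y = σ x - cj x` is `p`-torsion
    have hpx : p ^ j • (p • x) = 0 := by
      rw [← mul_smul, ← pow_succ]; exact hx
    set y := σ x - cj • x with hy
    have hpy : p • y = 0 := by
      have h1 := hσ (p • x) hpx
      rw [map_nsmul] at h1
      rw [hy, smul_sub, h1, smul_comm, sub_self]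
    have hσy : σ y = cj • y := by
      rw [hc y hpy]
      exact newton_zsmul_congr hpy hcj.symm
    have hσx : σ x = y + cj • x := by rw [hy]; abel
    have hσσx : σ (σ x) = (2 * cj) • y + (cj ^ 2) • x := by
      rw [hσx, map_add, map_zsmul, hσy, hσx]
      simp only [smul_add, mul_smul, pow_two, two_mul, add_smul]
      abel
    have h0 := hrel x hx
    rw [hσσx, hσx] at h0
    have h1 : (2 * cj - a) • y + D • x = 0 := by
      rw [← h0, hD]
      simp only [smul_add, sub_smul, add_smul, mul_smul]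
      abel
    -- multiply by `u`
    have h2 : y = -(u * D) • x := by
      have hy1 : (u * (2 * cj - a)) • y = y := by
        have hmod : u * (2 * cj - a) ≡ 1 [ZMOD p] := by
          have : (p : ℤ) ∣ 1 - u * (2 * cj - a) := by
            have : 1 - u * (2 * cj - a) = w * (p : ℤ) ^ (j + 1) := by rw [← huw]; ring
            rw [this, pow_succ]
            exact Dvd.dvd.mul_left (Dvd.intro_left _ rfl) w
          exact Int.modEq_iff_dvd.mpr this
        rw [newton_zsmul_congr hpy hmod, one_smul]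
      have h3 := congrArg (fun z => u • z) h1
      simp only [smul_add, smul_zero, ← mul_smul] at h3
      rw [hy1] at h3
      rw [neg_smul]
      exact eq_neg_of_add_eq_zero_left h3
    rw [hσx, h2, sub_smul, neg_smul]
    abel

/-- **Newton lifting.** -/
theorem newton_lift (σ : G →+ G) (p : ℕ) (hp : p.Prime) (a ℓ : ℤ) (c : ℤ)
    (hrel : ∀ (j : ℕ) (x : G), p ^ j • x = 0 → σ (σ x) - a • σ x + ℓ • x = 0)
    (hc : ∀ x : G, p • x = 0 → σ x = c • x) (hroot : (p : ℤ) ∣ c ^ 2 - a * c + ℓ)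
    (hpc : ¬ (p : ℤ) ∣ 2 * c - a) (j : ℕ) :
    ∃ cj : ℤ, cj ≡ c [ZMOD p] ∧ ∀ x : G, p ^ j • x = 0 → σ x = cj • x := by
  suffices h : ∀ j : ℕ, ∃ cj : ℤ, cj ≡ c [ZMOD p] ∧ (p : ℤ) ∣ cj ^ 2 - a * cj + ℓ ∧
      ∀ x : G, p ^ (j + 1) • x = 0 → σ x = cj • x by
    rcases j with _ | j
    · refine ⟨c, Int.ModEq.refl c, fun x hx => ?_⟩
      rw [pow_zero, one_smul] at hx
      rw [hx, map_zero, smul_zero]
    · obtain ⟨cj, h1, -, h3⟩ := h j
      exact ⟨cj, h1, h3⟩
  intro j
  induction j with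
  | zero =>
    refine ⟨c, Int.ModEq.refl c, hroot, fun x hx => ?_⟩
    rw [zero_add, pow_one] at hx
    exact hc x hx
  | succ j ih =>
    obtain ⟨cj, h1, h2, h3⟩ := ih
    exact newton_step σ p hp a ℓ c hc hpc (j + 1) cj h1 h2 h3 (hrel (j + 1 + 1))

end Fermat.Agent.FrobTrace
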