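import Mathlib
import Fermat.Agent.S52.ShortModel

/-!
# FrobTrace / ShortHom: the short model as a GROUP isomorphism, compatible with Frobenius
(owner: helper65)

`(x, y) ↦ (36 x + 3 b₂, 108 (2 y + a₁ x + a₃))` (helper75's `S52.toShortEquiv` on coordinates) is a group
homomorphism `W(k) → W_short(k)`: the chord/tangent slopes transform as `λ' = 3 (2 λ + a₁)`.
-/

set_option autoImplicit false

open WeierstrassCurve WeierstrassCurve.Affine

namespace Fermat.Agent.FrobTrace

open Fermat.Agent.S52 (shortW frobPt shortModel toShortX toShortY toShortEquiv)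

section Field

variable {F : Type*} [Field F] (W : WeierstrassCurve F)

lemma shortHom_a₁ : (shortModel W).a₁ = 0 := rfl
lemma shortHom_a₂ : (shortModel W).a₂ = 0 := rfl
lemma shortHom_a₃ : (shortModel W).a₃ = 0 := rfl
lemma shortHom_a₄ : (shortModel W).a₄ = -27 * W.c₄ := rfl
lemma shortHom_a₆ : (shortModel W).a₆ = -54 * W.c₆ := rfl

lemma shortHom_negY' (X Y : F) : (shortModel W).toAffine.negY X Y = -Y := by
  simp [Affine.negY, shortHom_a₁, shortHom_a₃]

lemma shortHom_negY (x y : F) :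
    (shortModel W).toAffine.negY (toShortX W x) (toShortY W x y)
      = toShortY W x (W.toAffine.negY x y) := by
  rw [shortHom_negY']
  simp only [toShortY, Affine.negY]
  ring

lemma shortHom_toShortX_inj (h2 : (2 : F) ≠ 0) (h3 : (3 : F) ≠ 0) {x₁ x₂ : F}
    (h : toShortX W x₁ = toShortX W x₂) : x₁ = x₂ := by
  have h36 : (36 : F) ≠ 0 := by
    have : (36 : F) = 2 ^ 2 * 3 ^ 2 := by norm_num
    rw [this]
    exact mul_ne_zero (pow_ne_zero _ h2) (pow_ne_zero _ h3)
  simp only [toShortX] at h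
  have : (36 : F) * (x₁ - x₂) = 0 := by linear_combination h
  rcases mul_eq_zero.mp this with h' | h'
  · exact absurd h' h36
  · exact sub_eq_zero.mp h'

lemma shortHom_toShortY_inj (h2 : (2 : F) ≠ 0) (h3 : (3 : F) ≠ 0) {x y₁ y₂ : F}
    (h : toShortY W x y₁ = toShortY W x y₂) : y₁ = y₂ := by
  have h216 : (216 : F) ≠ 0 := by
    have : (216 : F) = 2 ^ 3 * 3 ^ 3 := by norm_num
    rw [this]
    exact mul_ne_zero (pow_ne_zero _ h2) (pow_ne_zero _ h3)
  simp only [toShortY] at h
  have : (216 : F) * (y₁ - y₂) = 0 := by linear_combination h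
  rcases mul_eq_zero.mp this with h' | h'
  · exact absurd h' h216
  · exact sub_eq_zero.mp h'

variable [DecidableEq F]

/-- the slopes transform as `λ' = 6 λ + 3 a₁` -/
lemma shortHom_slope (h2 : (2 : F) ≠ 0) (h3 : (3 : F) ≠ 0) {x₁ x₂ y₁ y₂ : F}
    (h₁ : W.toAffine.Equation x₁ y₁) (h₂ : W.toAffine.Equation x₂ y₂)
    (hxy : ¬(x₁ = x₂ ∧ y₁ = W.toAffine.negY x₂ y₂)) :
    (shortModel W).toAffine.slope (toShortX W x₁) (toShortX W x₂) (toShortY W x₁ y₁)
        (toShortY W x₂ y₂)
      = 6 * W.toAffine.slope x₁ x₂ y₁ y₂ + 3 * W.a₁ := by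
  have h36 : (36 : F) ≠ 0 := by
    have : (36 : F) = 2 ^ 2 * 3 ^ 2 := by norm_num
    rw [this]
    exact mul_ne_zero (pow_ne_zero _ h2) (pow_ne_zero _ h3)
  have h216 : (216 : F) ≠ 0 := by
    have : (216 : F) = 2 ^ 3 * 3 ^ 3 := by norm_num
    rw [this]
    exact mul_ne_zero (pow_ne_zero _ h2) (pow_ne_zero _ h3)
  by_cases hx : x₁ = x₂
  · have hy : y₁ ≠ W.toAffine.negY x₂ y₂ := fun h => hxy ⟨hx, h⟩
    have hy' : toShortY W x₁ y₁ ≠ (shortModel W).toAffine.negY (toShortX W x₂) (toShortY W x₂ y₂) := by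
      rw [shortHom_negY]
      subst hx
      exact fun h => hy (shortHom_toShortY_inj W h2 h3 h)
    rw [Affine.slope_of_Y_ne (congrArg _ hx) hy', Affine.slope_of_Y_ne hx hy]
    have hyy : y₁ = y₂ := Affine.Y_eq_of_Y_ne h₁ h₂ hx hy
    subst hx hyy
    have hD : y₁ - W.toAffine.negY x₁ y₁ ≠ 0 := sub_ne_zero.mpr hy
    have hD' : toShortY W x₁ y₁ - (shortModel W).toAffine.negY (toShortX W x₁) (toShortY W x₁ y₁)
        ≠ 0 := sub_ne_zero.mpr hy'
    rw [div_eq_iff hD']
    have e1 : toShortY W x₁ y₁ - (shortModel W).toAffine.negY (toShortX W x₁) (toShortY W x₁ y₁)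
        = 216 * (y₁ - W.toAffine.negY x₁ y₁) := by
      rw [shortHom_negY']
      simp only [toShortY, Affine.negY]
      ring
    rw [e1, shortHom_a₂, shortHom_a₁, shortHom_a₄]
    field_simp
    simp only [toShortX, toShortY, Affine.negY, WeierstrassCurve.c₄, WeierstrassCurve.b₂,
      WeierstrassCurve.b₄]
    ring
  · have hX : toShortX W x₁ ≠ toShortX W x₂ := fun h => hx (shortHom_toShortX_inj W h2 h3 h)
    rw [Affine.slope_of_X_ne hX, Affine.slope_of_X_ne hx]
    have hne : x₁ - x₂ ≠ 0 := sub_ne_zero.mpr hx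
    have hne' : toShortX W x₁ - toShortX W x₂ ≠ 0 := sub_ne_zero.mpr hX
    rw [div_eq_iff hne']
    simp only [toShortX, toShortY]
    field_simp
    ring

omit [DecidableEq F] in
lemma shortHom_toShortEquiv_some (h2 : (2 : F) ≠ 0) (h3 : (3 : F) ≠ 0) {x y : F}
    (h : W.toAffine.Nonsingular x y) :
    toShortEquiv W h2 h3 (Point.some x y h)
      = Point.some (toShortX W x) (toShortY W x y)
          (Fermat.Agent.S52.toShort_nonsingular h2 h3 h) := rfl

omit [DecidableEq F] in
lemma shortHom_toShortEquiv_zero (h2 : (2 : F) ≠ 0) (h3 : (3 : F) ≠ 0) :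
    toShortEquiv W h2 h3 (0 : W.toAffine.Point) = 0 := rfl

/-- **additivity** of the bijection onto the short model -/
theorem shortHom_toShortEquiv_add (h2 : (2 : F) ≠ 0) (h3 : (3 : F) ≠ 0)
    (P Q : W.toAffine.Point) :
    toShortEquiv W h2 h3 (P + Q) = toShortEquiv W h2 h3 P + toShortEquiv W h2 h3 Q := by
  rcases P with _ | ⟨x₁, y₁, h₁⟩
  · change toShortEquiv W h2 h3 (0 + Q) = 0 + toShortEquiv W h2 h3 Q
    rw [zero_add, zero_add]
  rcases Q with _ | ⟨x₂, y₂, h₂⟩
  · change toShortEquiv W h2 h3 (Point.some x₁ y₁ h₁ + 0)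
      = toShortEquiv W h2 h3 (Point.some x₁ y₁ h₁) + 0
    rw [add_zero, add_zero]
  by_cases hxy : x₁ = x₂ ∧ y₁ = W.toAffine.negY x₂ y₂
  · rw [Point.add_of_Y_eq hxy.1 hxy.2, shortHom_toShortEquiv_zero,
      shortHom_toShortEquiv_some, shortHom_toShortEquiv_some]
    symm
    apply Point.add_of_Y_eq
    · rw [hxy.1]
    · rw [shortHom_negY, hxy.1, hxy.2]
  · have hXY : ¬(toShortX W x₁ = toShortX W x₂ ∧
        toShortY W x₁ y₁ = (shortModel W).toAffine.negY (toShortX W x₂) (toShortY W x₂ y₂)) := by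
      rintro ⟨hX, hY⟩
      have hx := shortHom_toShortX_inj W h2 h3 hX
      apply hxy
      refine ⟨hx, ?_⟩
      subst hx
      rw [shortHom_negY] at hY
      exact shortHom_toShortY_inj W h2 h3 hY
    rw [Point.add_some hxy, shortHom_toShortEquiv_some, shortHom_toShortEquiv_some,
      shortHom_toShortEquiv_some, Point.add_some hXY]
    have hsl := shortHom_slope W h2 h3 h₁.1 h₂.1 hxy
    have hX : toShortX W (W.toAffine.addX x₁ x₂ (W.toAffine.slope x₁ x₂ y₁ y₂))
        = (shortModel W).toAffine.addX (toShortX W x₁) (toShortX W x₂)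
            ((shortModel W).toAffine.slope (toShortX W x₁) (toShortX W x₂) (toShortY W x₁ y₁)
              (toShortY W x₂ y₂)) := by
      rw [hsl]
      simp only [Affine.addX, shortHom_a₁, shortHom_a₂, toShortX, WeierstrassCurve.b₂]
      ring
    have hY : toShortY W (W.toAffine.addX x₁ x₂ (W.toAffine.slope x₁ x₂ y₁ y₂))
          (W.toAffine.addY x₁ x₂ y₁ (W.toAffine.slope x₁ x₂ y₁ y₂))
        = (shortModel W).toAffine.addY (toShortX W x₁) (toShortX W x₂) (toShortY W x₁ y₁)
            ((shortModel W).toAffine.slope (toShortX W x₁) (toShortX W x₂) (toShortY W x₁ y₁)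
              (toShortY W x₂ y₂)) := by
      rw [hsl]
      simp only [Affine.addY, Affine.negAddY, Affine.addX, Affine.negY, shortHom_a₁, shortHom_a₂,
        shortHom_a₃, toShortX, toShortY, WeierstrassCurve.b₂]
      ring
    simp only [Point.some.injEq]
    exact ⟨hX, hY⟩

/-- the bijection onto the short model as an additive isomorphism -/
noncomputable def shortHomAddEquiv (h2 : (2 : F) ≠ 0) (h3 : (3 : F) ≠ 0) :
    W.toAffine.Point ≃+ (shortModel W).toAffine.Point :=
  { toShortEquiv W h2 h3 with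
    map_add' := shortHom_toShortEquiv_add W h2 h3 }

/-- transport of points along an equality of curves -/
noncomputable def shortHomCongr {W₁ W₂ : Affine F} (h : W₁ = W₂) : W₁.Point ≃+ W₂.Point :=
  h ▸ AddEquiv.refl _

lemma shortHomCongr_some {W₁ W₂ : Affine F} (h : W₁ = W₂) {x y : F}
    (hxy : W₁.Nonsingular x y) :
    shortHomCongr h (Point.some x y hxy) = Point.some x y (h ▸ hxy) := by
  subst h
  rfl

lemma shortHomCongr_zero {W₁ W₂ : Affine F} (h : W₁ = W₂) :
    shortHomCongr h (0 : W₁.Point) = 0 := map_zero _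

end Field

section BaseChange

variable {R : Type*} [CommRing R] (W : WeierstrassCurve R)
variable (k : Type*) [Field k] [Algebra R k]

lemma shortHom_baseChange_eq :
    shortModel (W.baseChange k) = (shortW (-27 * W.c₄) (-54 * W.c₆)).baseChange k := by
  simp only [shortModel, WeierstrassCurve.baseChange, shortW, WeierstrassCurve.map_c₄,
    WeierstrassCurve.map_c₆]
  ext <;> simp [WeierstrassCurve.map, map_neg, map_mul, map_ofNat]

variable [DecidableEq k]

/-- the short model as a group isomorphism over an extension field -/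
noncomputable def shortHomBase (h2 : (2 : k) ≠ 0) (h3 : (3 : k) ≠ 0) :
    (W⁄k).Point ≃+ ((shortW (-27 * W.c₄) (-54 * W.c₆))⁄k).Point :=
  (shortHomAddEquiv (W.baseChange k) h2 h3).trans (shortHomCongr (shortHom_baseChange_eq W k))

lemma shortHomBase_zero (h2 : (2 : k) ≠ 0) (h3 : (3 : k) ≠ 0) :
    shortHomBase W k h2 h3 0 = 0 := map_zero _

lemma shortHomBase_some (h2 : (2 : k) ≠ 0) (h3 : (3 : k) ≠ 0) {x y : k}
    (h : (W⁄k).Nonsingular x y) :
    ∃ h' : ((shortW (-27 * W.c₄) (-54 * W.c₆))⁄k).Nonsingular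
        (toShortX (W.baseChange k) x) (toShortY (W.baseChange k) x y),
      shortHomBase W k h2 h3 (Point.some x y h) = Point.some _ _ h' := by
  have h0 := Fermat.Agent.S52.toShort_nonsingular (W := W.baseChange k) h2 h3 h
  have h1 : ((shortW (-27 * W.c₄) (-54 * W.c₆))⁄k).Nonsingular
      (toShortX (W.baseChange k) x) (toShortY (W.baseChange k) x y) := by
    have e := shortHom_baseChange_eq W k
    exact (congrArg (fun E : WeierstrassCurve.Affine k =>
      E.Nonsingular (toShortX (W.baseChange k) x) (toShortY (W.baseChange k) x y)) e).mp h0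
  refine ⟨h1, ?_⟩
  simp only [shortHomBase, AddEquiv.trans_apply]
  exact shortHomCongr_some (shortHom_baseChange_eq W k) _

/-- compatibility with maps induced by algebra homomorphisms -/
theorem shortHomBase_map {k' : Type*} [Field k'] [Algebra R k'] [DecidableEq k']
    (h2 : (2 : k) ≠ 0) (h3 : (3 : k) ≠ 0) (h2' : (2 : k') ≠ 0) (h3' : (3 : k') ≠ 0)
    (f : k →ₐ[R] k') (P : (W⁄k).Point) :
    shortHomBase W k' h2' h3' (Affine.Point.map (W' := W) f P)
      = Affine.Point.map (W' := shortW (-27 * W.c₄) (-54 * W.c₆)) f (shortHomBase W k h2 h3 P) := by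
  rcases P with _ | ⟨x, y, h⟩
  · change shortHomBase W k' h2' h3' (Affine.Point.map (W' := W) f 0)
      = Affine.Point.map (W' := shortW (-27 * W.c₄) (-54 * W.c₆)) f (shortHomBase W k h2 h3 0)
    rw [map_zero, shortHomBase_zero, shortHomBase_zero, map_zero]
  · obtain ⟨h', e'⟩ := shortHomBase_some W k h2 h3 h
    rw [e', Affine.Point.map_some, Affine.Point.map_some]
    obtain ⟨h'', e''⟩ := shortHomBase_some W k' h2' h3'
      ((Affine.baseChange_nonsingular (W := W) f.injective x y).mpr h)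
    rw [e'']
    simp only [Point.some.injEq]
    constructor
    · simp only [toShortX, WeierstrassCurve.baseChange, WeierstrassCurve.map_b₂, map_add, map_mul,
        map_ofNat, AlgHom.commutes]
    · simp only [toShortY, WeierstrassCurve.baseChange, WeierstrassCurve.map_a₁,
        WeierstrassCurve.map_a₃, map_add, map_mul, map_ofNat, AlgHom.commutes]

end BaseChange

theorem shortW_Δ_ne_zero {ℓ : ℕ} [Fact ℓ.Prime] (h5 : 5 ≤ ℓ) (W : WeierstrassCurve (ZMod ℓ))
    (hΔ : W.Δ ≠ 0) : (shortW (-27 * W.c₄) (-54 * W.c₆)).Δ ≠ 0 := by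
  have hprime : ℓ.Prime := Fact.out
  have h2 : (2 : ZMod ℓ) ≠ 0 := by
    have : ((2 : ℕ) : ZMod ℓ) ≠ 0 := by
      rw [Ne, ZMod.natCast_eq_zero_iff]
      intro h
      have := Nat.le_of_dvd (by norm_num) h
      omega
    exact_mod_cast this
  have h3 : (3 : ZMod ℓ) ≠ 0 := by
    have : ((3 : ℕ) : ZMod ℓ) ≠ 0 := by
      rw [Ne, ZMod.natCast_eq_zero_iff]
      intro h
      have := Nat.le_of_dvd (by norm_num) h
      omega
    exact_mod_cast this
  have hrel := W.c_relation
  have e : (shortW (-27 * W.c₄) (-54 * W.c₆)).Δ = 2 ^ 12 * 3 ^ 12 * W.Δ := by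
    have e1 : (shortW (-27 * W.c₄) (-54 * W.c₆)).Δ
        = -16 * (4 * (-27 * W.c₄) ^ 3 + 27 * (-54 * W.c₆) ^ 2) := by
      simp only [shortW, WeierstrassCurve.Δ, WeierstrassCurve.b₂, WeierstrassCurve.b₄,
        WeierstrassCurve.b₆, WeierstrassCurve.b₈]
      ring
    rw [e1]
    linear_combination (-1259712 : ZMod ℓ) * hrel
  rw [e]
  exact mul_ne_zero (mul_ne_zero (pow_ne_zero _ h2) (pow_ne_zero _ h3)) hΔ

theorem exists_shortHom {ℓ : ℕ} [Fact ℓ.Prime] (h5 : 5 ≤ ℓ) (W : WeierstrassCurve (ZMod ℓ))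
    (k : Type*) [Field k] [Algebra (ZMod ℓ) k] [DecidableEq k] :
    ∃ h : (W⁄k).Point →+ ((shortW (-27 * W.c₄) (-54 * W.c₆))⁄k).Point,
      Function.Injective h ∧
      ∀ P, h (frobPt W k P) = frobPt (shortW (-27 * W.c₄) (-54 * W.c₆)) k (h P) := by
  have hprime : ℓ.Prime := Fact.out
  have h2 : (2 : ZMod ℓ) ≠ 0 := by
    have : ((2 : ℕ) : ZMod ℓ) ≠ 0 := by
      rw [Ne, ZMod.natCast_eq_zero_iff]
      intro h
      have := Nat.le_of_dvd (by norm_num) h
      omega
    exact_mod_cast this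
  have h3 : (3 : ZMod ℓ) ≠ 0 := by
    have : ((3 : ℕ) : ZMod ℓ) ≠ 0 := by
      rw [Ne, ZMod.natCast_eq_zero_iff]
      intro h
      have := Nat.le_of_dvd (by norm_num) h
      omega
    exact_mod_cast this
  have hinj := FaithfulSMul.algebraMap_injective (ZMod ℓ) k
  have h2k : (2 : k) ≠ 0 := by
    rw [← map_ofNat (algebraMap (ZMod ℓ) k) 2]
    exact (map_ne_zero_iff _ hinj).mpr h2
  have h3k : (3 : k) ≠ 0 := by
    rw [← map_ofNat (algebraMap (ZMod ℓ) k) 3]
    exact (map_ne_zero_iff _ hinj).mpr h3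
  refine ⟨(shortHomBase W k h2k h3k).toAddMonoidHom, (shortHomBase W k h2k h3k).injective, ?_⟩
  intro P
  exact shortHomBase_map W k h2k h3k h2k h3k (FiniteField.frobeniusAlgHom (ZMod ℓ) k) P

end Fermat.Agent.FrobTrace
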